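import Mathlib
import Fermat.Prelude.Def_ModularCurve_PeriodHomPair

/-!
The equivariant primitive of a cusp form is unique, it depends linearly on the form, and hence
the period map is linear as soon as primitives exist.
-/

set_option autoImplicit false

namespace Fermat.Agent.S21

open UpperHalfPlane CongruenceSubgroup Filter Topology ModularCurve ModularCurve.Period
open scoped MatrixGroups ModularForm

/-- The equivariant primitive of a cusp form is unique. -/
theorem hasEquivariantPrimitive_unique (N : ℕ) (f : CuspForm (Gamma0 N) 2) {F G : ℍ → ℂ}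
    (hF : HasEquivariantPrimitive N f F) (hG : HasEquivariantPrimitive N f G) : F = G := by
  have hU : IsOpen {z : ℂ | 0 < z.im} := isOpen_upperHalfPlaneSet
  have hconv : Convex ℝ {z : ℂ | 0 < z.im} := convex_halfSpace_im_gt 0
  have hder : ∀ z ∈ {z : ℂ | 0 < z.im},
      HasDerivAt (fun w => (F ∘ ofComplex) w - (G ∘ ofComplex) w) 0 z := by
    intro z hz
    have h := (hF.1 ⟨z, hz⟩).sub (hG.1 ⟨z, hz⟩)
    rw [sub_self] at h
    exact h
  have hd : DifferentiableOn ℂ (fun w => (F ∘ ofComplex) w - (G ∘ ofComplex) w)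
      {z : ℂ | 0 < z.im} :=
    fun z hz => (hder z hz).differentiableAt.differentiableWithinAt
  have hderiv : Set.EqOn (deriv fun w => (F ∘ ofComplex) w - (G ∘ ofComplex) w) 0
      {z : ℂ | 0 < z.im} := fun z hz => (hder z hz).deriv
  have hconst : ∀ τ : ℍ, F τ - G τ = F UpperHalfPlane.I - G UpperHalfPlane.I := by
    intro τ
    have h := hU.is_const_of_deriv_eq_zero hconv.isPreconnected hd hderiv τ.2 UpperHalfPlane.I.2
    simp only [Function.comp_apply, ofComplex_apply] at h
    exact h
  have h1 : Tendsto (fun τ : ℍ => F τ - G τ) atImInfty (𝓝 (0 - 0)) := hF.2.1.sub hG.2.1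
  have h2 : Tendsto (fun τ : ℍ => F τ - G τ) atImInfty
      (𝓝 (F UpperHalfPlane.I - G UpperHalfPlane.I)) := by
    have : (fun τ : ℍ => F τ - G τ) = fun _ => F UpperHalfPlane.I - G UpperHalfPlane.I :=
      funext hconst
    rw [this]
    exact tendsto_const_nhds
  have h0 : F UpperHalfPlane.I - G UpperHalfPlane.I = 0 := by
    have := tendsto_nhds_unique h2 h1
    rw [this, sub_self]
  funext τ
  have := hconst τ
  rw [h0] at this
  exact sub_eq_zero.mp this

/-- The period map is the period homomorphism of any equivariant primitive. -/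
theorem periodMap_eq_periodHom_of (N : ℕ) (f : CuspForm (Gamma0 N) 2) {F : ℍ → ℂ}
    (hF : HasEquivariantPrimitive N f F) : periodMap N f = hF.2.2.1.periodHom := by
  obtain ⟨F₀, h₀, heq⟩ := periodMap_def N f hF
  have hFF : F₀ = F := hasEquivariantPrimitive_unique N f h₀ hF
  subst hFF
  exact heq

theorem hasEquivariantPrimitive_add {N : ℕ} {f g : CuspForm (Gamma0 N) 2} {F G : ℍ → ℂ}
    (hF : HasEquivariantPrimitive N f F) (hG : HasEquivariantPrimitive N g G) :
    HasEquivariantPrimitive N (f + g) (F + G) := by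
  refine ⟨fun τ => ?_, ?_, fun γ => ?_, fun δ => ?_⟩
  · exact (hF.1 τ).add (hG.1 τ)
  · have := hF.2.1.add hG.2.1
    rw [add_zero] at this
    exact this
  · obtain ⟨c, hc⟩ := hF.2.2.1 γ
    obtain ⟨c', hc'⟩ := hG.2.2.1 γ
    refine ⟨c + c', fun z => ?_⟩
    simp only [Pi.add_apply]
    rw [← hc z, ← hc' z]
    ring
  · obtain ⟨L, hL⟩ := hF.2.2.2 δ
    obtain ⟨L', hL'⟩ := hG.2.2.2 δ
    exact ⟨L + L', hL.add hL'⟩

theorem hasEquivariantPrimitive_smul {N : ℕ} {f : CuspForm (Gamma0 N) 2} {F : ℍ → ℂ} (c : ℂ)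
    (hF : HasEquivariantPrimitive N f F) :
    HasEquivariantPrimitive N (c • f) (c • F) := by
  refine ⟨fun τ => ?_, ?_, fun γ => ?_, fun δ => ?_⟩
  · exact (hF.1 τ).const_smul c
  · have := hF.2.1.const_smul c
    rw [smul_zero] at this
    exact this
  · obtain ⟨a, ha⟩ := hF.2.2.1 γ
    refine ⟨c * a, fun z => ?_⟩
    simp only [Pi.smul_apply, smul_eq_mul]
    rw [← ha z]
    ring
  · obtain ⟨L, hL⟩ := hF.2.2.2 δ
    exact ⟨c • L, hL.const_smul c⟩

/-- If every cusp form has an equivariant primitive then the period map is linear. -/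
theorem existsPeriodMapLinear_of_exists (N : ℕ)
    (hprim : ∀ f : CuspForm (Gamma0 N) 2, ∃ F : ℍ → ℂ, HasEquivariantPrimitive N f F) :
    ExistsPeriodMapLinear N := by
  refine ⟨{ toFun := periodMap N, map_add' := fun f g => ?_, map_smul' := fun c f => ?_ },
    fun f => rfl⟩
  · obtain ⟨F, hF⟩ := hprim f
    obtain ⟨G, hG⟩ := hprim g
    rw [periodMap_eq_periodHom_of N (f + g) (hasEquivariantPrimitive_add hF hG),
      periodMap_eq_periodHom_of N f hF, periodMap_eq_periodHom_of N g hG]
    refine AddMonoidHom.ext fun γ => ?_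
    show (F + G) (((Additive.toMul γ : Gamma0 N) : SL(2, ℤ)) • UpperHalfPlane.I)
        - (F + G) UpperHalfPlane.I
      = (F (((Additive.toMul γ : Gamma0 N) : SL(2, ℤ)) • UpperHalfPlane.I) - F UpperHalfPlane.I)
        + (G (((Additive.toMul γ : Gamma0 N) : SL(2, ℤ)) • UpperHalfPlane.I)
          - G UpperHalfPlane.I)
    simp only [Pi.add_apply]
    ring
  · obtain ⟨F, hF⟩ := hprim f
    rw [periodMap_eq_periodHom_of N (c • f) (hasEquivariantPrimitive_smul c hF),
      periodMap_eq_periodHom_of N f hF]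
    refine AddMonoidHom.ext fun γ => ?_
    show (c • F) (((Additive.toMul γ : Gamma0 N) : SL(2, ℤ)) • UpperHalfPlane.I)
        - (c • F) UpperHalfPlane.I
      = c • (F (((Additive.toMul γ : Gamma0 N) : SL(2, ℤ)) • UpperHalfPlane.I)
        - F UpperHalfPlane.I)
    simp only [Pi.smul_apply, smul_eq_mul]
    ring

end Fermat.Agent.S21
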