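import Mathlib.NumberTheory.ModularForms.LevelOne.Basic
import Mathlib.NumberTheory.ModularForms.CongruenceSubgroups
import Mathlib.Analysis.Calculus.MeanValue

/-!
Maximum principle on `Γ₀(N) \ ℍ`: a holomorphic function on the upper half plane whose real part
is `Γ₀(N)`-invariant and which has a limit at every cusp is constant.
-/

set_option autoImplicit false

namespace Fermat.Agent.S21

open UpperHalfPlane CongruenceSubgroup Filter Topology Function Complex ModularGroup Metric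
open scoped MatrixGroups Real Manifold

local notation "𝕢" => Periodic.qParam

namespace MaxPrinciple

/-- `δ T^N δ⁻¹ ∈ Γ₀(N)` for every `δ ∈ SL(2, ℤ)`. -/
theorem conj_T_zpow_mem (N : ℕ) (δ : SL(2, ℤ)) : δ * T ^ (N : ℤ) * δ⁻¹ ∈ Gamma0 N := by
  have hT : T ^ (N : ℤ) ∈ Gamma N := ModularGroup_T_pow_mem_Gamma N N dvd_rfl
  have hconj : δ * T ^ (N : ℤ) * δ⁻¹ ∈ Gamma N := (Gamma_normal N).conj_mem _ hT δ
  rw [Gamma_mem] at hconj
  rw [Gamma0_mem]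
  exact hconj.2.2.1

theorem tendsto_vadd_atImInfty (x : ℝ) :
    Tendsto (fun w : ℍ => x +ᵥ w) atImInfty atImInfty := by
  rw [atImInfty, tendsto_comap_iff]
  have : (UpperHalfPlane.im ∘ fun w : ℍ => x +ᵥ w) = UpperHalfPlane.im := by
    funext w
    simp
  rw [this]
  exact tendsto_comap

/-- Every element of `SL(2, ℤ)` is a product of an element of `Γ₀(N)` and one of the chosen
representatives. -/
theorem exists_rep (N : ℕ) (g : SL(2, ℤ)) :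
    ∃ γ ∈ Gamma0 N, ∃ r : SL(2, ℤ) ⧸ Gamma0 N, g = γ * (Quotient.out r)⁻¹ := by
  obtain ⟨h, hh⟩ := QuotientGroup.mk_out_eq_mul (Gamma0 N) g⁻¹
  refine ⟨h, h.2, QuotientGroup.mk g⁻¹, ?_⟩
  rw [hh]
  group

variable {N : ℕ} {Φ : ℍ → ℂ}

theorem vadd_periodic [NeZero N]
    (hinv : ∀ γ ∈ Gamma0 N, ∃ c : ℂ, c.re = 0 ∧ ∀ z : ℍ, Φ (γ • z) = Φ z + c)
    (hlim : ∀ δ : SL(2, ℤ), ∃ L : ℂ, Tendsto (fun w : ℍ => Φ (δ • w)) atImInfty (𝓝 L))
    (δ : SL(2, ℤ)) (w : ℍ) : Φ (δ • ((N : ℝ) +ᵥ w)) = Φ (δ • w) := by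
  obtain ⟨c, -, hc⟩ := hinv _ (conj_T_zpow_mem N δ)
  obtain ⟨L, hL⟩ := hlim δ
  have h1 : ∀ w : ℍ, Φ (δ • ((N : ℝ) +ᵥ w)) = Φ (δ • w) + c := by
    intro w
    rw [← hc (δ • w)]
    congr 1
    rw [← mul_smul, inv_mul_cancel_right, mul_smul, modular_T_zpow_smul]
    simp
  have h2 : Tendsto (fun w : ℍ => Φ (δ • ((N : ℝ) +ᵥ w))) atImInfty (𝓝 L) :=
    hL.comp (tendsto_vadd_atImInfty (N : ℝ))
  have h3 : Tendsto (fun w : ℍ => Φ (δ • ((N : ℝ) +ᵥ w))) atImInfty (𝓝 (L + c)) :=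
    (hL.add_const c).congr fun w => (h1 w).symm
  have hc0 : c = 0 := by
    have := tendsto_nhds_unique h2 h3
    simpa using this.symm
  rw [h1 w, hc0, add_zero]

/-- The function `w ↦ exp (Φ (δ • w))`. -/
noncomputable def ψ (Φ : ℍ → ℂ) (δ : SL(2, ℤ)) : ℍ → ℂ := fun w => cexp (Φ (δ • w))

theorem mdiff_ψ (hΦ : MDiff Φ) (δ : SL(2, ℤ)) : MDiff (ψ Φ δ) := by
  have hdet : 0 < ((δ : GL (Fin 2) ℝ)).det.val := by simp
  have h1 : MDiff (fun w : ℍ => Φ (δ • w)) := hΦ.comp (mdifferentiable_smul hdet)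
  rw [mdifferentiable_iff] at h1 ⊢
  exact h1.cexp

theorem periodic_ψ [NeZero N]
    (hinv : ∀ γ ∈ Gamma0 N, ∃ c : ℂ, c.re = 0 ∧ ∀ z : ℍ, Φ (γ • z) = Φ z + c)
    (hlim : ∀ δ : SL(2, ℤ), ∃ L : ℂ, Tendsto (fun w : ℍ => Φ (δ • w)) atImInfty (𝓝 L))
    (δ : SL(2, ℤ)) : Periodic (ψ Φ δ ∘ ofComplex) (N : ℝ) := by
  intro w
  by_cases hw : 0 < im w
  · have hw' : 0 < im (w + (N : ℝ)) := by simpa using hw
    simp only [comp_apply, ofComplex_apply_of_im_pos hw', ofComplex_apply_of_im_pos hw, ψ]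
    have h := vadd_periodic hinv hlim δ ⟨w, hw⟩
    have he : (⟨w + (N : ℝ), hw'⟩ : ℍ) = (N : ℝ) +ᵥ (⟨w, hw⟩ : ℍ) := by
      ext
      simp [add_comm]
    rw [he, h]
  · have hw0 : im w ≤ 0 := not_lt.mp hw
    have hw' : im (w + (N : ℝ)) ≤ 0 := by simpa using hw0
    simp only [comp_apply]
    rw [ofComplex_apply_eq_of_im_nonpos hw' hw0]

theorem bdd_ψ (hlim : ∀ δ : SL(2, ℤ), ∃ L : ℂ, Tendsto (fun w : ℍ => Φ (δ • w)) atImInfty (𝓝 L))
    (δ : SL(2, ℤ)) : IsBoundedAtImInfty (ψ Φ δ) := by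
  obtain ⟨L, hL⟩ := hlim δ
  have h : Tendsto (ψ Φ δ) atImInfty (𝓝 (cexp L)) := (Complex.continuous_exp.tendsto L).comp hL
  exact h.isBigO_one ℝ

theorem norm_ψ_of_mem
    (hinv : ∀ γ ∈ Gamma0 N, ∃ c : ℂ, c.re = 0 ∧ ∀ z : ℍ, Φ (γ • z) = Φ z + c)
    {γ : SL(2, ℤ)} (hγ : γ ∈ Gamma0 N) (δ : SL(2, ℤ)) (w : ℍ) :
    ‖ψ Φ (γ * δ) w‖ = ‖ψ Φ δ w‖ := by
  obtain ⟨c, hc0, hc⟩ := hinv γ hγ
  simp only [ψ, Complex.norm_exp, mul_smul, hc, add_re, hc0, add_zero]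

end MaxPrinciple

open MaxPrinciple in
/-- **Maximum principle on the modular curve.** A holomorphic function on the upper half plane
which changes by purely imaginary constants under `Γ₀(N)` and has a limit at every cusp is
constant. -/
theorem eq_const_of_re_invariant (N : ℕ) [NeZero N] (Φ : ℍ → ℂ) (hΦ : MDiff Φ)
    (hinv : ∀ γ ∈ Gamma0 N, ∃ c : ℂ, c.re = 0 ∧ ∀ z : ℍ, Φ (γ • z) = Φ z + c)
    (hlim : ∀ δ : SL(2, ℤ), ∃ L : ℂ, Tendsto (fun w : ℍ => Φ (δ • w)) atImInfty (𝓝 L)) :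
    ∃ c : ℂ, ∀ z : ℍ, Φ z = c := by
  classical
  have hN : (0 : ℝ) < N := by exact_mod_cast Nat.pos_of_ne_zero (NeZero.ne N)
  let _ : Fintype (SL(2, ℤ) ⧸ Gamma0 N) := Fintype.ofFinite _
  -- the chosen representatives
  let rep : SL(2, ℤ) ⧸ Gamma0 N → SL(2, ℤ) := fun r => (Quotient.out r)⁻¹
  -- the cusp functions
  let G : SL(2, ℤ) ⧸ Gamma0 N → ℂ → ℂ := fun r => cuspFunction (N : ℝ) (ψ Φ (rep r))
  have hG_eq : ∀ r (τ : ℍ), G r (𝕢 (N : ℝ) τ) = ψ Φ (rep r) τ := fun r τ =>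
    eq_cuspFunction τ hN.ne' (periodic_ψ hinv hlim (rep r))
  have hG_diff : ∀ r, DifferentiableOn ℂ (G r) (ball 0 1) := fun r =>
    differentiableOn_cuspFunction_ball hN (periodic_ψ hinv hlim (rep r)) (mdiff_ψ hΦ (rep r))
      (bdd_ψ hlim (rep r))
  let Fv : ℂ → (SL(2, ℤ) ⧸ Gamma0 N → ℂ) := fun q r => G r q
  have hFv_diff : DifferentiableOn ℂ Fv (ball 0 1) := by
    rw [differentiableOn_pi]
    exact hG_diff
  set ρ : ℝ := Real.exp (-π / N) with hρ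
  have hρ0 : 0 ≤ ρ := (Real.exp_pos _).le
  have hρ1 : ρ < 1 := by
    rw [hρ, Real.exp_lt_one_iff]
    exact div_neg_of_neg_of_pos (neg_lt_zero.mpr Real.pi_pos) hN
  -- domination
  have hdom : ∀ q ∈ ball (0 : ℂ) 1, ∃ q' ∈ closedBall (0 : ℂ) ρ, ‖Fv q‖ ≤ ‖Fv q'‖ := by
    intro q hq
    rcases eq_or_ne q 0 with rfl | hq0
    · exact ⟨0, by simpa using hρ0, le_rfl⟩
    · have hq1 : ‖q‖ < 1 := mem_ball_zero_iff.mp hq
      let w : ℍ := ⟨Periodic.invQParam (N : ℝ) q, Periodic.im_invQParam_pos_of_norm_lt_one hN hq1 hq0⟩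
      have hw : 𝕢 (N : ℝ) (w : ℂ) = q := Periodic.qParam_right_inv hN.ne' hq0
      have hGw : ∀ r, G r q = ψ Φ (rep r) w := fun r => by rw [← hw]; exact hG_eq r w
      obtain ⟨r₀, hr₀⟩ := Finite.exists_max (fun r => ‖ψ Φ (rep r) w‖)
      obtain ⟨σ, hσ, -⟩ := exists_one_half_le_im_smul_and_norm_denom_le (rep r₀ • w)
      obtain ⟨γ, hγ, r₁, hr₁⟩ := exists_rep N σ⁻¹
      set ξ : ℍ := σ • (rep r₀ • w) with hξ
      have hz : rep r₀ • w = (γ * rep r₁) • ξ := by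
        rw [hξ, ← hr₁, inv_smul_smul]
      have hkey : ‖ψ Φ (rep r₀) w‖ = ‖ψ Φ (rep r₁) ξ‖ := by
        rw [← norm_ψ_of_mem hinv hγ (rep r₁) ξ]
        simp only [ψ]
        rw [hz]
      refine ⟨𝕢 (N : ℝ) ξ, ?_, ?_⟩
      · rw [mem_closedBall_zero_iff, Periodic.norm_qParam, hρ]
        apply Real.exp_le_exp.mpr
        have h12 : (1 : ℝ) / 2 ≤ (ξ : ℂ).im := hσ
        rw [div_le_div_iff_of_pos_right hN]
        nlinarith [Real.pi_pos]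
      · calc ‖Fv q‖ ≤ ‖ψ Φ (rep r₀) w‖ := by
              rw [pi_norm_le_iff_of_nonneg (norm_nonneg _)]
              intro r
              show ‖G r q‖ ≤ _
              rw [hGw r]
              exact hr₀ r
          _ = ‖ψ Φ (rep r₁) ξ‖ := hkey
          _ = ‖G r₁ (𝕢 (N : ℝ) ξ)‖ := by rw [hG_eq]
          _ ≤ ‖Fv (𝕢 (N : ℝ) ξ)‖ := norm_le_pi_norm (Fv (𝕢 (N : ℝ) ξ)) r₁
  -- a maximum of the norm on the closed ball
  obtain ⟨x, hx_mem, hx_max⟩ := (isCompact_closedBall (0 : ℂ) ρ).exists_isMaxOn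
    (nonempty_closedBall.mpr hρ0)
    ((hFv_diff.continuousOn.mono (closedBall_subset_ball hρ1)).norm)
  have hx_ball : x ∈ ball (0 : ℂ) 1 := closedBall_subset_ball hρ1 hx_mem
  have hmax : IsMaxOn (norm ∘ Fv) (ball 0 1) x := by
    intro q hq
    obtain ⟨q', hq', hle⟩ := hdom q hq
    exact hle.trans (hx_max hq')
  have hnorm := Complex.norm_eqOn_of_isPreconnected_of_isMaxOn
    (convex_ball (0 : ℂ) 1).isPreconnected isOpen_ball hFv_diff hx_ball hmax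
  -- a point `q₀` and an index attaining the norm there
  set q₀ : ℂ := 𝕢 (N : ℝ) (UpperHalfPlane.I : ℍ) with hq₀
  have hq₀_ball : q₀ ∈ ball (0 : ℂ) 1 :=
    mem_ball_zero_iff.mpr (UpperHalfPlane.norm_qParam_lt_one N UpperHalfPlane.I)
  obtain ⟨r₀, hr₀⟩ := Finite.exists_max (fun r => ‖G r q₀‖)
  have hr₀' : ‖Fv q₀‖ ≤ ‖G r₀ q₀‖ := (pi_norm_le_iff_of_nonneg (norm_nonneg _)).mpr hr₀
  have hmax₀ : IsMaxOn (norm ∘ G r₀) (ball 0 1) q₀ := by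
    intro q hq
    calc ‖G r₀ q‖ ≤ ‖Fv q‖ := norm_le_pi_norm (Fv q) r₀
      _ = ‖Fv x‖ := hnorm hq
      _ = ‖Fv q₀‖ := (hnorm hq₀_ball).symm
      _ ≤ ‖G r₀ q₀‖ := hr₀'
  have hconst := Complex.eq_const_of_exists_max (hG_diff r₀) hq₀_ball hmax₀
  -- `exp ∘ Φ` is constant
  have hexp : ∀ z : ℍ, cexp (Φ z) = G r₀ q₀ := by
    intro z
    have h1 := hconst (mem_ball_zero_iff.mpr
      (UpperHalfPlane.norm_qParam_lt_one N ((rep r₀)⁻¹ • z)))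
    rw [hG_eq] at h1
    simpa [ψ] using h1
  -- hence `Φ` has zero derivative, so it is constant
  have hU : IsOpen {z : ℂ | 0 < z.im} := isOpen_upperHalfPlaneSet
  have hUc : IsPreconnected {z : ℂ | 0 < z.im} := (convex_halfSpace_im_gt 0).isPreconnected
  have hg : DifferentiableOn ℂ (Φ ∘ ofComplex) {z : ℂ | 0 < z.im} := mdifferentiable_iff.mp hΦ
  have hderiv : Set.EqOn (deriv (Φ ∘ ofComplex)) 0 {z : ℂ | 0 < z.im} := by
    intro z hz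
    have hmem : {z : ℂ | 0 < z.im} ∈ 𝓝 z := hU.mem_nhds hz
    have hd : HasDerivAt (Φ ∘ ofComplex) (deriv (Φ ∘ ofComplex) z) z :=
      (hg.differentiableAt hmem).hasDerivAt
    have h1 : HasDerivAt (fun u => cexp ((Φ ∘ ofComplex) u))
        (cexp ((Φ ∘ ofComplex) z) * deriv (Φ ∘ ofComplex) z) z := hd.cexp
    have h2 : (fun u => cexp ((Φ ∘ ofComplex) u)) =ᶠ[𝓝 z] fun _ => G r₀ q₀ := by
      filter_upwards [hmem] with u hu
      exact hexp (ofComplex u)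
    have h3 : HasDerivAt (fun u => cexp ((Φ ∘ ofComplex) u)) 0 z :=
      (hasDerivAt_const z (G r₀ q₀)).congr_of_eventuallyEq h2
    have h4 := h1.unique h3
    simpa [Complex.exp_ne_zero] using h4
  refine ⟨Φ UpperHalfPlane.I, fun z => ?_⟩
  have h := hU.is_const_of_deriv_eq_zero hUc hg hderiv z.2 UpperHalfPlane.I.2
  simp only [comp_apply] at h
  rw [ofComplex_apply, ofComplex_apply] at h
  exact h

end Fermat.Agent.S21
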