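import Mathlib.NumberTheory.ModularForms.QExpansion
import Mathlib.NumberTheory.ModularForms.CongruenceSubgroups
import Mathlib.Analysis.Complex.HasPrimitives
import Mathlib.Analysis.Complex.RemovableSingularity
import Mathlib.Analysis.Calculus.DSlope
import Fermat.Prelude.Def_ModularCurve_PeriodHomPair
import Fermat.Agent.S21.MaxPrinciple

/-
S21 / ES piece E1: existence of equivariant primitives of weight-2 cusp forms of level Gamma0(N).

Main results: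
* `exists_primitive_of_periodic_decay` : periodic holomorphic functions on the upper half plane
  which decay at infinity have periodic primitives which decay at infinity (via the q-parameter).
* `hasDerivAt_comp_smul` : chain rule for `w ↦ F (δ • w)`.
* `eq_add_const_of_hasDerivAt` : primitives are unique up to constants.
* `tendsto_of_hasDerivAt_slash` : primitives of cusp forms have limits at every cusp.
* `isEquivariantPrimitive_of_hasDerivAt`, `exists_hasEquivariantPrimitive`.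
-/

set_option autoImplicit false

namespace Fermat.Agent.S21

open UpperHalfPlane CongruenceSubgroup Filter Topology Function
open scoped MatrixGroups ModularForm Real Manifold

local notation "𝕢" => Periodic.qParam

/-- Two primitives on `ℍ` of the same function differ by a constant. -/
theorem eq_add_const_of_hasDerivAt {G₁ G₂ : ℍ → ℂ} {g : ℍ → ℂ}
    (h₁ : ∀ τ : ℍ, HasDerivAt (G₁ ∘ ofComplex) (g τ) τ)
    (h₂ : ∀ τ : ℍ, HasDerivAt (G₂ ∘ ofComplex) (g τ) τ) :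
    ∃ c : ℂ, ∀ τ : ℍ, G₁ τ = G₂ τ + c := by
  have hsub : ∀ z (hz : 0 < z.im),
      HasDerivAt (fun z => (G₁ ∘ ofComplex) z - (G₂ ∘ ofComplex) z) 0 z := by
    intro z hz
    have := (h₁ ⟨z, hz⟩).sub (h₂ ⟨z, hz⟩)
    rw [sub_self] at this
    exact this
  have hd : DifferentiableOn ℂ (fun z => (G₁ ∘ ofComplex) z - (G₂ ∘ ofComplex) z)
      {z : ℂ | 0 < z.im} :=
    fun z hz => (hsub z hz).differentiableAt.differentiableWithinAt
  have hderiv : Set.EqOn (deriv (fun z => (G₁ ∘ ofComplex) z - (G₂ ∘ ofComplex) z)) 0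
      {z : ℂ | 0 < z.im} := fun z hz => (hsub z hz).deriv
  obtain ⟨c, hc⟩ := isOpen_upperHalfPlaneSet.exists_is_const_of_deriv_eq_zero
    (convex_halfSpace_im_gt 0).isPreconnected hd hderiv
  refine ⟨c, fun τ => ?_⟩
  have := hc τ τ.im_pos
  simp only [comp_apply, ofComplex_apply] at this
  linear_combination this

theorem periodic_comp_ofComplex_of_vadd {g : ℍ → ℂ} {h : ℝ}
    (hper : ∀ τ : ℍ, g (h +ᵥ τ) = g τ) : Periodic (g ∘ ofComplex) (h : ℂ) := by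
  intro x
  by_cases hx : 0 < x.im
  · have hx' : 0 < (x + (h : ℂ)).im := by simpa using hx
    simp only [comp_apply, ofComplex_apply_of_im_pos hx', ofComplex_apply_of_im_pos hx]
    rw [← hper ⟨x, hx⟩]
    congr 1
    ext
    simp [add_comm]
  · have hx0 : x.im ≤ 0 := not_lt.mp hx
    have hx' : (x + (h : ℂ)).im ≤ 0 := by simpa using hx0
    simp only [comp_apply]
    rw [ofComplex_apply_of_im_nonpos hx', ofComplex_apply_of_im_nonpos hx0]

theorem hasDerivAt_qParam (h : ℝ) (z : ℂ) :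
    HasDerivAt (𝕢 h) (𝕢 h z * (2 * π * Complex.I / h)) z := by
  unfold Periodic.qParam
  have : HasDerivAt (fun z : ℂ => 2 * π * Complex.I * z / h) (2 * π * Complex.I / h) z := by
    simpa using ((hasDerivAt_id z).const_mul (2 * π * Complex.I)).div_const (h : ℂ)
  exact this.cexp

/-- (P1) A holomorphic function on `ℍ` which is periodic and tends to `0` at `i∞` has a periodic
primitive which tends to `0` at `i∞`. -/
theorem exists_primitive_of_periodic_decay (g : ℍ → ℂ)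
    (hg : ∀ τ : ℍ, DifferentiableAt ℂ (g ∘ ofComplex) (τ : ℂ)) (h : ℕ) (hh : 0 < h)
    (hper : ∀ τ : ℍ, g ((h : ℝ) +ᵥ τ) = g τ) (hdec : Tendsto g atImInfty (𝓝 0)) :
    ∃ G : ℍ → ℂ, (∀ τ : ℍ, HasDerivAt (G ∘ ofComplex) (g τ) (τ : ℂ)) ∧
      Tendsto G atImInfty (𝓝 0) ∧ ∀ τ : ℍ, G ((h : ℝ) +ᵥ τ) = G τ := by
  have hh' : (0 : ℝ) < (h : ℝ) := Nat.cast_pos.mpr hh
  have hper' : Periodic (g ∘ ofComplex) (((h : ℕ) : ℝ) : ℂ) := periodic_comp_ofComplex_of_vadd hper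
  have hmd : MDiff g := fun τ => mdifferentiableAt_iff.mpr (hg τ)
  have hzero : IsZeroAtImInfty g := hdec
  have hbdd : IsBoundedAtImInfty g := hzero.isBoundedAtImInfty
  set φ := cuspFunction (h : ℝ) g with hφ
  have hφd : DifferentiableOn ℂ φ (Metric.ball 0 1) :=
    differentiableOn_cuspFunction_ball hh' hper' hmd hbdd
  have hφeq : ∀ τ : ℍ, φ (𝕢 (h : ℝ) τ) = g τ := fun τ => eq_cuspFunction τ hh'.ne' hper'
  have hφ0 : φ 0 = 0 :=
    Periodic.cuspFunction_zero_of_zero_at_inf hh' (hdec.comp tendsto_comap_im_ofComplex)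
  have hball : Metric.ball (0 : ℂ) 1 ∈ 𝓝 (0 : ℂ) := Metric.ball_mem_nhds 0 one_pos
  have hφ₁d : DifferentiableOn ℂ (dslope φ 0) (Metric.ball 0 1) :=
    (Complex.differentiableOn_dslope hball).mpr hφd
  have hφ₁ : ∀ q, q * dslope φ 0 q = φ q := by
    intro q
    have := sub_smul_dslope φ 0 q
    simpa [hφ0] using this
  have hψd : DifferentiableOn ℂ (fun q => ((h : ℂ) / (2 * π * Complex.I)) * dslope φ 0 q)
      (Metric.ball 0 1) := hφ₁d.const_mul _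
  obtain ⟨Ψ, hΨ0, hΨ⟩ := hψd.isExactOn_ball.with_val_at 0 0
  refine ⟨fun τ => Ψ (𝕢 (h : ℝ) τ), ?_, ?_, ?_⟩
  · intro τ
    have hq : 𝕢 (h : ℝ) τ ∈ Metric.ball (0 : ℂ) 1 :=
      mem_ball_zero_iff.mpr (Periodic.norm_qParam_lt_one hh' τ.im_pos)
    have h1 := hΨ _ hq
    have h2 := hasDerivAt_qParam (h : ℝ) (τ : ℂ)
    have h3 := h1.comp (τ : ℂ) h2
    have hhne : ((h : ℝ) : ℂ) ≠ 0 := by exact_mod_cast hh'.ne'
    have h4 : ((h : ℂ) / (2 * π * Complex.I)) * dslope φ 0 (𝕢 (h : ℝ) τ) *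
        (𝕢 (h : ℝ) τ * (2 * π * Complex.I / ((h : ℝ) : ℂ))) = g τ := by
      rw [← hφeq τ, ← hφ₁ (𝕢 (h : ℝ) τ)]
      have hpi : (π : ℂ) ≠ 0 := by exact_mod_cast Real.pi_ne_zero
      push_cast at hhne ⊢
      field_simp
    rw [h4] at h3
    refine h3.congr_of_eventuallyEq ?_
    filter_upwards [isOpen_upperHalfPlaneSet.mem_nhds τ.im_pos] with z hz
    simp [ofComplex_apply_of_im_pos hz]
  · have : Tendsto (fun τ : ℍ => Ψ (𝕢 (h : ℝ) τ)) atImInfty (𝓝 (Ψ 0)) :=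
      ((hΨ 0 (Metric.mem_ball_self one_pos)).continuousAt.tendsto).comp
        (qParam_tendsto_atImInfty hh')
    rwa [hΨ0] at this
  · intro τ
    have : 𝕢 (h : ℝ) (((h : ℝ) +ᵥ τ : ℍ) : ℂ) = 𝕢 (h : ℝ) (τ : ℂ) := by
      rw [coe_vadd]
      simp only [Periodic.qParam]
      have hhne : ((h : ℝ) : ℂ) ≠ 0 := by exact_mod_cast hh'.ne'
      rw [show 2 * (π : ℂ) * Complex.I * (((h : ℝ) : ℂ) + (τ : ℂ)) / ((h : ℝ) : ℂ)
          = 2 * π * Complex.I * τ / ((h : ℝ) : ℂ) + 2 * π * Complex.I by field_simp; ring,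
        Complex.exp_add, Complex.exp_two_pi_mul_I, mul_one]
    simp only [this]

/-- The weight-`k` slash action of `T ^ n` is translation by `n`. -/
theorem slash_T_zpow_apply (g : ℍ → ℂ) (k : ℤ) (n : ℤ) (τ : ℍ) :
    (g ∣[k] (ModularGroup.T ^ n)) τ = g ((n : ℝ) +ᵥ τ) := by
  rw [ModularForm.SL_slash_apply, modular_T_zpow_smul]
  have h10 : ((ModularGroup.T ^ n : SL(2, ℤ)) : Matrix (Fin 2) (Fin 2) ℤ) 1 0 = 0 := by
    rw [ModularGroup.coe_T_zpow]
    rfl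
  have h11 : ((ModularGroup.T ^ n : SL(2, ℤ)) : Matrix (Fin 2) (Fin 2) ℤ) 1 1 = 1 := by
    rw [ModularGroup.coe_T_zpow]
    rfl
  have hd : denom (ModularGroup.T ^ n : SL(2, ℤ)) τ = 1 := by
    rw [ModularGroup.denom_apply, h10, h11]
    simp
  rw [hd, one_zpow, mul_one]

/-- A cusp form of level `Γ₀(N)` is slash-invariant under `Γ₀(N)` (as a subgroup of `SL(2, ℤ)`). -/
theorem slash_eq_self_of_mem_Gamma0 {N : ℕ} {k : ℤ} (f : CuspForm (Gamma0 N) k) {γ : SL(2, ℤ)}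
    (hγ : γ ∈ Gamma0 N) : (⇑f) ∣[k] γ = ⇑f := by
  rw [ModularForm.SL_slash]
  exact SlashInvariantForm.slash_action_eqn f _ (Subgroup.mem_map_of_mem _ hγ)

/-- The slash `f ∣[k] δ` of a level `Γ₀(N)` cusp form is `N`-periodic. -/
theorem slash_vadd_periodic {N : ℕ} {k : ℤ} (f : CuspForm (Gamma0 N) k) (δ : SL(2, ℤ))
    (τ : ℍ) : ((⇑f) ∣[k] δ) (((N : ℕ) : ℝ) +ᵥ τ) = ((⇑f) ∣[k] δ) τ := by
  have h1 : ((⇑f) ∣[k] δ) ∣[k] (ModularGroup.T ^ (N : ℤ)) = (⇑f) ∣[k] δ := by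
    rw [← SlashAction.slash_mul,
      show δ * ModularGroup.T ^ (N : ℤ) = (δ * ModularGroup.T ^ (N : ℤ) * δ⁻¹) * δ by group,
      SlashAction.slash_mul, slash_eq_self_of_mem_Gamma0 f (Fermat.Agent.S21.MaxPrinciple.conj_T_zpow_mem N δ)]
  have h2 := slash_T_zpow_apply ((⇑f) ∣[k] δ) k (N : ℤ) τ
  rw [h1] at h2
  rw [h2]
  simp

/-- The derivative of `w ↦ F (δ • w)` when `F` is a primitive of `f`. -/
theorem hasDerivAt_comp_smul {F f : ℍ → ℂ}
    (hF : ∀ τ : ℍ, HasDerivAt (F ∘ ofComplex) (f τ) (τ : ℂ)) (δ : SL(2, ℤ)) :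
    ∀ τ : ℍ, HasDerivAt ((fun w : ℍ => F (δ • w)) ∘ ofComplex) ((f ∣[(2 : ℤ)] δ) τ) (τ : ℂ) := by
  intro τ
  have hdet1 : ((δ : GL (Fin 2) ℝ)).val.det = 1 :=
    (Matrix.SpecialLinearGroup.map (Int.castRingHom ℝ) δ).det_coe
  have hdet : 0 < ((δ : GL (Fin 2) ℝ)).val.det := by rw [hdet1]; exact one_pos
  have h1 := (hasStrictDerivAt_smul hdet τ).hasDerivAt
  have hpt : ((δ • τ : ℍ) : ℂ) = (((δ : GL (Fin 2) ℝ) • ofComplex (τ : ℂ) : ℍ) : ℂ) := by
    rw [ofComplex_apply]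
    rfl
  have h2 := (hF (δ • τ)).comp_of_eq (τ : ℂ) h1 hpt
  have hfun : ((F ∘ ofComplex) ∘ fun z : ℂ => (((δ : GL (Fin 2) ℝ) • ofComplex z : ℍ) : ℂ))
      = (fun w : ℍ => F (δ • w)) ∘ ofComplex := by
    funext z
    simp only [comp_apply, ofComplex_apply]
    rfl
  rw [hfun, hdet1] at h2
  have hval : (f ∣[(2 : ℤ)] δ) τ
      = f (δ • τ) * (((1 : ℝ) : ℂ) / denom ((δ : GL (Fin 2) ℝ)) (τ : ℂ) ^ 2) := by
    rw [ModularForm.SL_slash_apply]
    simp [zpow_neg, div_eq_mul_inv]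
  rw [hval]
  exact h2

/-- (P2) If `F` is a primitive of a cusp form `f` of level `Γ₀(N)` and weight `2`, then
`w ↦ F (δ • w)` has a limit at `i∞` for every `δ ∈ SL(2, ℤ)`. -/
theorem tendsto_of_hasDerivAt_slash (N : ℕ) [NeZero N] (f : CuspForm (Gamma0 N) 2) (F : ℍ → ℂ)
    (hF : ∀ τ : ℍ, HasDerivAt (F ∘ ofComplex) (f τ) (τ : ℂ)) (δ : SL(2, ℤ)) :
    ∃ L : ℂ, Tendsto (fun w : ℍ => F (δ • w)) atImInfty (𝓝 L) := by
  have hmd : MDiff ((⇑f) ∣[(2 : ℤ)] δ) := by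
    rw [ModularForm.SL_slash]
    exact MDifferentiable.slash (CuspFormClass.holo f) 2 _
  have hg : ∀ τ : ℍ, DifferentiableAt ℂ (((⇑f) ∣[(2 : ℤ)] δ) ∘ ofComplex) (τ : ℂ) :=
    fun τ => mdifferentiableAt_iff.mp (hmd τ)
  have hdec : Tendsto ((⇑f) ∣[(2 : ℤ)] δ) atImInfty (𝓝 0) :=
    CuspFormClass.zero_at_infty_slash f δ
  obtain ⟨G, hG, hG0, -⟩ := exists_primitive_of_periodic_decay ((⇑f) ∣[(2 : ℤ)] δ) hg N
    (NeZero.pos N) (slash_vadd_periodic f δ) hdec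
  obtain ⟨c, hc⟩ := eq_add_const_of_hasDerivAt (G₁ := fun w : ℍ => F (δ • w)) (G₂ := G)
    (hasDerivAt_comp_smul hF δ) hG
  refine ⟨c, ?_⟩
  have : Tendsto (fun w : ℍ => G w + c) atImInfty (𝓝 (0 + c)) := hG0.add_const c
  rw [zero_add] at this
  exact this.congr fun w => (hc w).symm

/-- A primitive of a weight-`2` cusp form of level `Γ₀(N)` is `Γ₀(N)`-equivariant up to
additive constants. -/
theorem isEquivariantPrimitive_of_hasDerivAt (N : ℕ) [NeZero N] (f : CuspForm (Gamma0 N) 2)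
    {F : ℍ → ℂ} (hF : ∀ τ : ℍ, HasDerivAt (F ∘ ofComplex) (f τ) (τ : ℂ)) :
    ModularCurve.Period.IsEquivariantPrimitive (Gamma0 N) F := by
  intro γ
  have h1 := hasDerivAt_comp_smul hF (γ : SL(2, ℤ))
  rw [slash_eq_self_of_mem_Gamma0 f γ.2] at h1
  obtain ⟨c, hc⟩ := eq_add_const_of_hasDerivAt (G₁ := fun w : ℍ => F ((γ : SL(2, ℤ)) • w))
    (G₂ := F) h1 hF
  exact ⟨c, fun z => by rw [hc z]; ring⟩

/-- (E1) Every weight-`2` cusp form of level `Γ₀(N)` has an equivariant primitive. -/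
theorem exists_hasEquivariantPrimitive (N : ℕ) [NeZero N] (f : CuspForm (Gamma0 N) 2) :
    ∃ F : ℍ → ℂ, ModularCurve.HasEquivariantPrimitive N f F := by
  have hg : ∀ τ : ℍ, DifferentiableAt ℂ ((⇑f) ∘ ofComplex) (τ : ℂ) :=
    fun τ => mdifferentiableAt_iff.mp (CuspFormClass.holo f τ)
  have hper : ∀ τ : ℍ, (⇑f) (((1 : ℕ) : ℝ) +ᵥ τ) = (⇑f) τ := by
    intro τ
    have hT : ModularGroup.T ^ (1 : ℤ) ∈ Gamma0 N := by
      rw [Gamma0_mem, ModularGroup.coe_T_zpow]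
      simp
    have h2 := slash_T_zpow_apply (⇑f) 2 (1 : ℤ) τ
    rw [slash_eq_self_of_mem_Gamma0 f hT] at h2
    rw [h2]
    simp
  have hdec : Tendsto (⇑f) atImInfty (𝓝 0) := CuspFormClass.zero_at_infty f
  obtain ⟨F, hF, hF0, -⟩ := exists_primitive_of_periodic_decay (⇑f) hg 1 one_pos hper hdec
  exact ⟨F, hF, hF0, isEquivariantPrimitive_of_hasDerivAt N f hF,
    tendsto_of_hasDerivAt_slash N f F hF⟩

end Fermat.Agent.S21
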