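import Mathlib

/-!
P8-COH (G): the Shapiro cocycle of a homomorphism `φ : Γ → ℂ` on `G ⧸ Γ`, and the relations
satisfied by its values at two generators `s`, `u` with `s ^ 2 = u ^ 3` central in `Γ`.
-/

set_option autoImplicit false

namespace Fermat.Agent.S21

section Cocycle

variable {G : Type*} [Group G] (Γ : Subgroup G)

/-- Homomorphisms `Γ → ℂ` killing every conjugate of a power of `t` that lies in `Γ`. -/
def cuspKillingHoms (t : G) : Submodule ℂ (Additive Γ →+ ℂ) where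
  carrier := {φ | ∀ (g : G) (w : ℕ) (h : g * t ^ w * g⁻¹ ∈ Γ), φ (Additive.ofMul ⟨_, h⟩) = 0}
  zero_mem' := fun _ _ _ => rfl
  add_mem' := by
    intro φ ψ hφ hψ g w h
    show φ _ + ψ _ = 0
    rw [hφ g w h, hψ g w h, add_zero]
  smul_mem' := by
    intro c φ hφ g w h
    show c • φ _ = 0
    rw [hφ g w h, smul_zero]

theorem mem_cuspKillingHoms {t : G} {φ : Additive Γ →+ ℂ} :
    φ ∈ cuspKillingHoms Γ t ↔
      ∀ (g : G) (w : ℕ) (h : g * t ^ w * g⁻¹ ∈ Γ), φ (Additive.ofMul ⟨_, h⟩) = 0 :=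
  Iff.rfl

theorem shapiro_mem (g : G) (x : G ⧸ Γ) :
    (Quotient.out (g • x))⁻¹ * g * Quotient.out x ∈ Γ := by
  have h : ((g * Quotient.out x : G) : G ⧸ Γ) = ((Quotient.out (g • x) : G) : G ⧸ Γ) := by
    rw [QuotientGroup.out_eq', ← smul_eq_mul, ← MulAction.Quotient.smul_mk, QuotientGroup.out_eq']
  have h2 := QuotientGroup.eq.mp h.symm
  rwa [← mul_assoc] at h2

/-- The Shapiro cocycle of a homomorphism `φ : Γ → ℂ`. -/
noncomputable def shapiro (φ : Additive Γ →+ ℂ) (g : G) (x : G ⧸ Γ) : ℂ :=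
  φ (Additive.ofMul ⟨(Quotient.out (g • x))⁻¹ * g * Quotient.out x, shapiro_mem Γ g x⟩)

theorem shapiro_mul (φ : Additive Γ →+ ℂ) (g g' : G) (x : G ⧸ Γ) :
    shapiro Γ φ (g * g') x = shapiro Γ φ g (g' • x) + shapiro Γ φ g' x := by
  unfold shapiro
  rw [← map_add, ← ofMul_mul]
  congr 2
  apply Subtype.ext
  simp only [Subgroup.coe_mul, mul_smul]
  group

theorem shapiro_one (φ : Additive Γ →+ ℂ) (x : G ⧸ Γ) : shapiro Γ φ 1 x = 0 := by
  have h := shapiro_mul Γ φ 1 1 x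
  rw [mul_one, one_smul] at h
  linear_combination -h

section Relations

variable {Γ}
variable {s u : G}

/-- `s ^ 2` acts trivially on `G ⧸ Γ` when it is central and lies in `Γ`. -/
theorem sq_smul_eq (hsΓ : s ^ 2 ∈ Γ) (hcent : ∀ g : G, s ^ 2 * g = g * s ^ 2) (x : G ⧸ Γ) :
    s ^ 2 • x = x := by
  induction x using QuotientGroup.induction_on with
  | H g =>
    rw [MulAction.Quotient.smul_mk, smul_eq_mul, hcent g]
    exact (QuotientGroup.eq.mpr (by simpa using hsΓ)).symm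

theorem shapiro_sq (hs4 : s ^ 4 = 1) (hsΓ : s ^ 2 ∈ Γ) (hcent : ∀ g : G, s ^ 2 * g = g * s ^ 2)
    (φ : Additive Γ →+ ℂ) (x : G ⧸ Γ) : shapiro Γ φ (s ^ 2) x = 0 := by
  have h1 : s ^ 2 * s ^ 2 = 1 := by rw [← pow_add]; exact hs4
  have h2 := shapiro_mul Γ φ (s ^ 2) (s ^ 2) x
  rw [h1, shapiro_one, sq_smul_eq hsΓ hcent] at h2
  linear_combination -h2 / 2

theorem shapiro_s_smul (hs4 : s ^ 4 = 1) (hsΓ : s ^ 2 ∈ Γ)
    (hcent : ∀ g : G, s ^ 2 * g = g * s ^ 2) (φ : Additive Γ →+ ℂ) (x : G ⧸ Γ) :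
    shapiro Γ φ s (s • x) = - shapiro Γ φ s x := by
  have h := shapiro_mul Γ φ s s x
  rw [← pow_two, shapiro_sq hs4 hsΓ hcent] at h
  linear_combination -h

theorem shapiro_u_sum (hsu : s ^ 2 = u ^ 3) (hs4 : s ^ 4 = 1) (hsΓ : s ^ 2 ∈ Γ)
    (hcent : ∀ g : G, s ^ 2 * g = g * s ^ 2) (φ : Additive Γ →+ ℂ) (x : G ⧸ Γ) :
    shapiro Γ φ u x + shapiro Γ φ u (u • x) + shapiro Γ φ u (u • u • x) = 0 := by
  have h3 : u * (u * u) = s ^ 2 := by rw [hsu, pow_succ, pow_two, mul_assoc]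
  have h1 := shapiro_mul Γ φ u (u * u) x
  have h2 := shapiro_mul Γ φ u u x
  rw [h3, shapiro_sq hs4 hsΓ hcent, mul_smul] at h1
  linear_combination -h1 - h2

/-- The value of the Shapiro cocycle at `t = s⁻¹ * u`. -/
theorem shapiro_t (φ : Additive Γ →+ ℂ) (x : G ⧸ Γ) :
    shapiro Γ φ (s⁻¹ * u) x = shapiro Γ φ u x - shapiro Γ φ s ((s⁻¹ * u) • x) := by
  have h1 := shapiro_mul Γ φ s⁻¹ u x
  have h2 := shapiro_mul Γ φ s⁻¹ s (s⁻¹ • u • x)
  rw [inv_mul_cancel, shapiro_one, smul_inv_smul] at h2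
  rw [h1, mul_smul]
  linear_combination -h2

theorem shapiro_pow (φ : Additive Γ →+ ℂ) (t : G) (m : ℕ) (x : G ⧸ Γ) :
    shapiro Γ φ (t ^ m) x = ∑ k ∈ Finset.range m, shapiro Γ φ t (t ^ k • x) := by
  induction m with
  | zero => rw [pow_zero, shapiro_one, Finset.range_zero, Finset.sum_empty]
  | succ m ih =>
    rw [pow_succ', shapiro_mul, ih, Finset.sum_range_succ]
    ring

theorem shapiro_pow_eq_zero {t : G} {φ : Additive Γ →+ ℂ} (hφ : φ ∈ cuspKillingHoms Γ t)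
    {m : ℕ} {x : G ⧸ Γ} (hx : t ^ m • x = x) : shapiro Γ φ (t ^ m) x = 0 := by
  unfold shapiro
  have hmem : (Quotient.out x)⁻¹ * t ^ m * (Quotient.out x)⁻¹⁻¹ ∈ Γ := by
    have := shapiro_mem Γ (t ^ m) x
    rw [hx] at this
    simpa using this
  have h := hφ (Quotient.out x)⁻¹ m hmem
  rw [← h]
  congr 2
  apply Subtype.ext
  simp only [hx, inv_inv]

theorem sum_shapiro_t_eq_zero {φ : Additive Γ →+ ℂ}
    (hφ : φ ∈ cuspKillingHoms Γ (s⁻¹ * u)) {m : ℕ} {x : G ⧸ Γ}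
    (hx : (s⁻¹ * u) ^ m • x = x) :
    ∑ k ∈ Finset.range m, (shapiro Γ φ u ((s⁻¹ * u) ^ k • x)
      - shapiro Γ φ s ((s⁻¹ * u) • (s⁻¹ * u) ^ k • x)) = 0 := by
  have h := shapiro_pow_eq_zero hφ hx
  rw [shapiro_pow] at h
  rw [← h]
  exact Finset.sum_congr rfl fun k _ => (shapiro_t φ _).symm

/-- A cocycle-like function that agrees with a coboundary on a generating set is that
coboundary. -/
theorem shapiro_eq_of_closure {S : Set G} (hS : Subgroup.closure S = ⊤) (φ : Additive Γ →+ ℂ)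
    (v : (G ⧸ Γ) → ℂ) (h : ∀ g ∈ S, ∀ x, shapiro Γ φ g x = v (g • x) - v x) (g : G) (x : G ⧸ Γ) :
    shapiro Γ φ g x = v (g • x) - v x := by
  have hg : g ∈ Subgroup.closure S := hS ▸ Subgroup.mem_top g
  induction hg using Subgroup.closure_induction generalizing x with
  | mem g hg => exact h g hg x
  | one => rw [shapiro_one, one_smul, sub_self]
  | mul g g' _ _ ihg ihg' =>
    rw [shapiro_mul, ihg, ihg', mul_smul]
    ring
  | inv g _ ih =>
    have h1 := shapiro_mul Γ φ g⁻¹ g (g⁻¹ • x)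
    rw [inv_mul_cancel, shapiro_one, smul_inv_smul, ih] at h1
    rw [smul_inv_smul] at h1
    linear_combination -h1

/-- `φ` is recovered from its Shapiro cocycle at the base point. -/
theorem shapiro_base (φ : Additive Γ →+ ℂ) (γ : Γ) :
    shapiro Γ φ (γ : G) ((1 : G) : G ⧸ Γ) = φ (Additive.ofMul γ) := by
  have hfix : (γ : G) • (((1 : G) : G ⧸ Γ)) = ((1 : G) : G ⧸ Γ) := by
    rw [MulAction.Quotient.smul_mk, smul_eq_mul, mul_one]
    exact QuotientGroup.eq.mpr (by simp)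
  have hout : (Quotient.out (((1 : G) : G ⧸ Γ))) ∈ Γ := by
    have h := QuotientGroup.out_eq' (((1 : G) : G ⧸ Γ))
    have h2 := QuotientGroup.eq.mp h
    simpa using h2
  unfold shapiro
  set δ : Γ := ⟨Quotient.out (((1 : G) : G ⧸ Γ)), hout⟩ with hδ
  have hel : (⟨(Quotient.out ((γ : G) • (((1 : G) : G ⧸ Γ))))⁻¹ * (γ : G) *
      Quotient.out (((1 : G) : G ⧸ Γ)), shapiro_mem Γ (γ : G) _⟩ : Γ) = δ⁻¹ * γ * δ := by
    apply Subtype.ext
    simp only [hfix, Subgroup.coe_mul, Subgroup.coe_inv, hδ]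
  rw [hel, ofMul_mul, ofMul_mul, map_add, map_add, ofMul_inv, map_neg]
  ring

theorem eq_zero_of_shapiro_eq_coboundary (hgen : Subgroup.closure {s, u} = ⊤)
    (φ : Additive Γ →+ ℂ) (v : (G ⧸ Γ) → ℂ)
    (hs : ∀ x, shapiro Γ φ s x = v (s • x) - v x)
    (hu : ∀ x, shapiro Γ φ u x = v (u • x) - v x) : φ = 0 := by
  have hall := shapiro_eq_of_closure hgen φ v (by
    rintro g (rfl | rfl)
    · exact hs
    · exact hu)
  refine AddMonoidHom.ext fun γ => ?_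
  obtain ⟨γ, rfl⟩ : ∃ γ' : Γ, Additive.ofMul γ' = γ := ⟨Additive.toMul γ, rfl⟩
  rw [← shapiro_base, hall, AddMonoidHom.zero_apply]
  have hfix : (γ : G) • (((1 : G) : G ⧸ Γ)) = ((1 : G) : G ⧸ Γ) := by
    rw [MulAction.Quotient.smul_mk, smul_eq_mul, mul_one]
    exact QuotientGroup.eq.mpr (by simp)
  rw [hfix, sub_self]

end Relations

section LinearMap

variable (s u : G)

/-- The linear map `φ ↦ (z_φ(s), z_φ(u))`. -/
noncomputable def shapiroPair :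
    (Additive Γ →+ ℂ) →ₗ[ℂ] ((G ⧸ Γ) → ℂ) × ((G ⧸ Γ) → ℂ) where
  toFun φ := (shapiro Γ φ s, shapiro Γ φ u)
  map_add' _ _ := rfl
  map_smul' _ _ := rfl

@[simp] theorem shapiroPair_fst (φ : Additive Γ →+ ℂ) (x : G ⧸ Γ) :
    (shapiroPair Γ s u φ).1 x = shapiro Γ φ s x := rfl

@[simp] theorem shapiroPair_snd (φ : Additive Γ →+ ℂ) (x : G ⧸ Γ) :
    (shapiroPair Γ s u φ).2 x = shapiro Γ φ u x := rfl

end LinearMap

end Cocycle

end Fermat.Agent.S21
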