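import Mathlib
import Fermat.Agent.S21.CohCocycle
import Fermat.Prelude.Def_ModularCurve_PeriodMap

/-!
P8-COH: bridges for the final dimension bound.

* `SL(2, ℤ)` facts: `S ^ 2 = (S * T) ^ 3` is central of order two and lies in `Gamma0 N`,
  `S` and `S * T` generate, and parabolic homomorphisms kill the conjugates of powers of `T`.
* orbit counting for permutations of order two and three, and the comparison between orbits of
  `zpowers g` and cycles of `MulAction.toPerm g`.
-/

set_option autoImplicit false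

namespace Fermat.Agent.S21

open ModularGroup CongruenceSubgroup
open scoped MatrixGroups

section SL2

theorem S_sq_eq_neg_one : (S : SL(2, ℤ)) ^ 2 = -1 := by
  ext i j
  fin_cases i <;> fin_cases j <;>
    simp [pow_two, coe_S, Matrix.mul_apply, Fin.sum_univ_two]

theorem ST_cube_eq_neg_one : ((S * T : SL(2, ℤ))) ^ 3 = -1 := by
  ext i j
  fin_cases i <;> fin_cases j <;>
    simp [pow_succ, coe_S, coe_T, Matrix.mul_apply, Fin.sum_univ_two]

theorem S_sq_eq_ST_cube : (S : SL(2, ℤ)) ^ 2 = (S * T) ^ 3 := by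
  rw [S_sq_eq_neg_one, ST_cube_eq_neg_one]

theorem S_pow_four : (S : SL(2, ℤ)) ^ 4 = 1 := by
  have h : (S : SL(2, ℤ)) ^ 4 = (S ^ 2) ^ 2 := by rw [← pow_mul]
  rw [h, S_sq_eq_neg_one]
  simp

theorem S_sq_mem_Gamma0 (N : ℕ) : (S : SL(2, ℤ)) ^ 2 ∈ Gamma0 N := by
  rw [S_sq_eq_neg_one, Gamma0_mem]
  simp

theorem S_sq_central (g : SL(2, ℤ)) : (S : SL(2, ℤ)) ^ 2 * g = g * S ^ 2 := by
  rw [S_sq_eq_neg_one]
  simp

theorem closure_S_ST : Subgroup.closure ({S, S * T} : Set SL(2, ℤ)) = ⊤ := by
  rw [eq_top_iff, ← SpecialLinearGroup.SL2Z_generators, Subgroup.closure_le]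
  rintro g (rfl | rfl)
  · exact Subgroup.subset_closure (Set.mem_insert _ _)
  · have h1 : (S : SL(2, ℤ)) ∈ Subgroup.closure ({S, S * T} : Set SL(2, ℤ)) :=
      Subgroup.subset_closure (Set.mem_insert _ _)
    have h2 : (S * T : SL(2, ℤ)) ∈ Subgroup.closure ({S, S * T} : Set SL(2, ℤ)) :=
      Subgroup.subset_closure (Set.mem_insert_of_mem _ rfl)
    have h3 := Subgroup.mul_mem _ (Subgroup.inv_mem _ h1) h2
    rwa [inv_mul_cancel_left] at h3

theorem S_inv_mul_ST : (S : SL(2, ℤ))⁻¹ * (S * T) = T := inv_mul_cancel_left _ _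

theorem trace_conj_T_pow (g : SL(2, ℤ)) (w : ℕ) :
    ((g * T ^ w * g⁻¹ : SL(2, ℤ)) : Matrix (Fin 2) (Fin 2) ℤ).trace = 2 := by
  rw [Matrix.SpecialLinearGroup.coe_mul, Matrix.SpecialLinearGroup.coe_mul, Matrix.trace_mul_comm,
    ← Matrix.mul_assoc, ← Matrix.SpecialLinearGroup.coe_mul, inv_mul_cancel,
    Matrix.SpecialLinearGroup.coe_one, Matrix.one_mul]
  have h : ((T ^ w : SL(2, ℤ)) : Matrix (Fin 2) (Fin 2) ℤ) = !![1, (w : ℤ); 0, 1] := by
    have := ModularGroup.coe_T_zpow (w : ℤ)
    rw [zpow_natCast] at this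
    exact this
  rw [h, Matrix.trace_fin_two_of]
  norm_num

/-- Parabolic homomorphisms kill every conjugate of a power of `T` lying in `Gamma0 N`. -/
theorem parabolicHoms_le_cuspKillingHoms (N : ℕ) :
    ModularCurve.Period.parabolicHoms ℂ (Gamma0 N) ℂ ≤ cuspKillingHoms (Gamma0 N) ModularGroup.T := by
  intro φ hφ g w h
  refine hφ ⟨_, h⟩ ?_
  show ((g * T ^ w * g⁻¹ : SL(2, ℤ)) : Matrix (Fin 2) (Fin 2) ℤ).trace ^ 2 = 4
  rw [trace_conj_T_pow]
  norm_num

end SL2

section Orbits

/-- Orbits of the cyclic group generated by `g` are the cycles of the permutation `toPerm g`. -/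
theorem orbitRel_zpowers_iff {G X : Type*} [Group G] [MulAction G X] (g : G) (x y : X) :
    MulAction.orbitRel (Subgroup.zpowers g) X x y ↔
      (MulAction.toPerm g : Equiv.Perm X).SameCycle x y := by
  rw [MulAction.orbitRel_apply, MulAction.mem_orbit_iff, Equiv.Perm.sameCycle_comm]
  constructor
  · rintro ⟨⟨h, k, rfl⟩, hk⟩
    refine ⟨k, ?_⟩
    rw [← hk]
    have : (MulAction.toPerm g : Equiv.Perm X) ^ k = MulAction.toPerm (g ^ k) :=
      (map_zpow (MulAction.toPermHom G X) g k).symm
    rw [this]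
    rfl
  · rintro ⟨k, hk⟩
    refine ⟨⟨g ^ k, k, rfl⟩, ?_⟩
    rw [← hk]
    have : (MulAction.toPerm g : Equiv.Perm X) ^ k = MulAction.toPerm (g ^ k) :=
      (map_zpow (MulAction.toPermHom G X) g k).symm
    rw [this]
    rfl

theorem card_orbitRel_zpowers {G X : Type*} [Group G] [MulAction G X] (g : G) :
    Nat.card (MulAction.orbitRel.Quotient (Subgroup.zpowers g) X) =
      Nat.card (Quotient (Equiv.Perm.SameCycle.setoid (MulAction.toPerm g : Equiv.Perm X))) :=
  Nat.card_congr (Quotient.congrRight fun x y => orbitRel_zpowers_iff g x y)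

theorem card_fixedBy_eq {G X : Type*} [Group G] [MulAction G X] (g : G) :
    Nat.card (MulAction.fixedBy X g) = Nat.card {x : X // MulAction.toPerm g x = x} := rfl

theorem toPerm_perm {X : Type*} (σ : Equiv.Perm X) : MulAction.toPerm σ = σ := by
  ext x
  rfl

/-- Burnside's lemma for the cyclic group generated by a permutation. -/
theorem sum_card_fixed_pow {X : Type*} [Finite X] (σ : Equiv.Perm X) :
    ∑ k ∈ Finset.range (orderOf σ), Nat.card {x : X // (σ ^ k) x = x} =
      Nat.card (Quotient (Equiv.Perm.SameCycle.setoid σ)) * orderOf σ := by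
  classical
  have := Fintype.ofFinite X
  have : Fintype (Subgroup.zpowers σ) := Fintype.ofFinite _
  have : ∀ g : Subgroup.zpowers σ, Fintype (MulAction.fixedBy X g) := fun g => Fintype.ofFinite _
  have : Fintype (MulAction.orbitRel.Quotient (Subgroup.zpowers σ) X) := Fintype.ofFinite _
  have hB := MulAction.sum_card_fixedBy_eq_card_orbits_mul_card_group (Subgroup.zpowers σ) X
  have hσ : IsOfFinOrder σ := isOfFinOrder_of_finite σ
  have h1 : Fintype.card (Subgroup.zpowers σ) = orderOf σ := by
    rw [← Nat.card_eq_fintype_card, Nat.card_zpowers]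
  have h2 : Fintype.card (MulAction.orbitRel.Quotient (Subgroup.zpowers σ) X) =
      Nat.card (Quotient (Equiv.Perm.SameCycle.setoid σ)) := by
    rw [← Nat.card_eq_fintype_card, card_orbitRel_zpowers, toPerm_perm]
  rw [h1, h2] at hB
  rw [← hB, ← Fin.sum_univ_eq_sum_range (fun k => Nat.card {x : X // (σ ^ k) x = x}) (orderOf σ)]
  refine Fintype.sum_equiv (finEquivZPowers hσ) _ _ fun k => ?_
  rw [← Nat.card_eq_fintype_card]
  rfl

theorem card_fixed_one (X : Type*) : Nat.card {x : X // (1 : Equiv.Perm X) x = x} = Nat.card X :=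
  Nat.card_congr (Equiv.subtypeUnivEquiv fun _ => rfl)

/-- Orbit count of an involution. -/
theorem two_mul_card_cycles {X : Type*} [Finite X] (σ : Equiv.Perm X) (h : σ * σ = 1) :
    2 * Nat.card (Quotient (Equiv.Perm.SameCycle.setoid σ)) =
      Nat.card X + Nat.card {x : X // σ x = x} := by
  have hB := sum_card_fixed_pow σ
  have hdvd : orderOf σ ∣ 2 := orderOf_dvd_of_pow_eq_one (by rw [pow_two]; exact h)
  rcases (Nat.dvd_prime Nat.prime_two).mp hdvd with h1 | h2
  · have hσ : σ = 1 := orderOf_eq_one_iff.mp h1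
    subst hσ
    rw [h1, Finset.sum_range_one, pow_zero, card_fixed_one, mul_one] at hB
    rw [card_fixed_one, ← hB]
    ring
  · rw [h2, Finset.sum_range_succ, Finset.sum_range_one, pow_zero, pow_one, card_fixed_one] at hB
    rw [hB]
    ring

/-- Orbit count of a permutation of order dividing three. -/
theorem three_mul_card_cycles {X : Type*} [Finite X] (σ : Equiv.Perm X) (h : σ * σ * σ = 1) :
    3 * Nat.card (Quotient (Equiv.Perm.SameCycle.setoid σ)) =
      Nat.card X + 2 * Nat.card {x : X // σ x = x} := by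
  have hB := sum_card_fixed_pow σ
  have hdvd : orderOf σ ∣ 3 := orderOf_dvd_of_pow_eq_one (by rw [pow_succ, pow_two]; exact h)
  rcases (Nat.dvd_prime Nat.prime_three).mp hdvd with h1 | h3
  · have hσ : σ = 1 := orderOf_eq_one_iff.mp h1
    subst hσ
    rw [h1, Finset.sum_range_one, pow_zero, card_fixed_one, mul_one] at hB
    rw [card_fixed_one, ← hB]
    ring
  · have hsq : Nat.card {x : X // (σ ^ 2) x = x} = Nat.card {x : X // σ x = x} := by
      refine Nat.card_congr (Equiv.subtypeEquivRight fun x => ?_)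
      have h3' : ∀ y : X, σ (σ (σ y)) = y := fun y => by
        have := congrArg (fun τ : Equiv.Perm X => τ y) h
        simpa using this
      constructor
      · intro hx
        have hx' : σ (σ x) = x := by simpa [pow_two] using hx
        have := h3' x
        rw [hx'] at this
        exact this
      · intro hx
        simp [pow_two, hx]
    rw [h3, Finset.sum_range_succ, Finset.sum_range_succ, Finset.sum_range_one, pow_zero, pow_one,
      card_fixed_one, hsq] at hB
    omega

end Orbits

end Fermat.Agent.S21
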