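import Mathlib
import Fermat.Prelude.Def_ModularCurve_PeriodHomPair

/-!
The period homomorphism of a cusp form vanishes on the elements of trace `±2`: such an element
is `±` a conjugate of a translation, and the equivariant primitive has a limit at every cusp.
-/

set_option autoImplicit false

namespace Fermat.Agent.S21

open UpperHalfPlane CongruenceSubgroup Filter Topology ModularCurve ModularCurve.Period
open scoped MatrixGroups ModularForm

namespace Parabolic

/-- A primitive integer vector fixed by an integer matrix of trace `2` and determinant `1`,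
completed to a unimodular matrix. -/
theorem exists_fixed_vector (a b c d : ℤ) (htr : a + d = 2) (hdet : a * d - b * c = 1) :
    ∃ p q r s : ℤ, p * s - q * r = 1 ∧ a * p + b * q = p ∧ c * p + d * q = q := by
  have hsq : (a - 1) * (a - 1) + b * c = 0 := by
    have hd : d = 2 - a := by linarith
    rw [hd] at hdet
    linear_combination -hdet
  by_cases hb : b = 0
  · have ha : a = 1 := by
      rw [hb, zero_mul, add_zero] at hsq
      have := mul_self_eq_zero.mp hsq
      linarith
    have hd : d = 1 := by linarith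
    exact ⟨0, 1, -1, 0, by norm_num, by rw [hb]; ring, by rw [hd]; ring⟩
  · have hg : 0 < Int.gcd b (a - 1) := Int.gcd_pos_of_ne_zero_left _ hb
    obtain ⟨g, b', m', hgpos, hcop, hb', hm'⟩ := Int.exists_gcd_one' hg
    have hgne : (g : ℤ) ≠ 0 := by exact_mod_cast hgpos.ne'
    have hbez := Int.gcd_eq_gcd_ab b' m'
    rw [hcop] at hbez
    have hbez' : (1 : ℤ) = b' * Int.gcdA b' m' + m' * Int.gcdB b' m' := by exact_mod_cast hbez
    have hkey : c * b' + (a - 1) * m' = 0 := by
      have h1 : (g : ℤ) * (c * b' + (a - 1) * m') = 0 := by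
        have e1 : (g : ℤ) * (c * b' + (a - 1) * m') = (b' * g) * c + (a - 1) * (m' * g) := by
          ring
        rw [e1, ← hb', ← hm']
        linarith
      exact (mul_eq_zero.mp h1).resolve_left hgne
    refine ⟨b', -m', Int.gcdB b' m', Int.gcdA b' m', ?_, ?_, ?_⟩
    · linear_combination -hbez'
    · have e2 : (a - 1) * b' - (b' * g) * m' = 0 := by
        rw [hm']
        ring
      rw [← hb'] at e2
      linear_combination e2
    · have hd : d = 2 - a := by linarith
      rw [hd]
      linear_combination hkey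

/-- An element of `SL(2, ℤ)` of trace `2` is conjugate to a translation. -/
theorem exists_conj_of_trace_two (γ : SL(2, ℤ))
    (hγ : (γ : Matrix (Fin 2) (Fin 2) ℤ).trace = 2) :
    ∃ (δ : SL(2, ℤ)) (k : ℤ), γ = δ * ModularGroup.T ^ k * δ⁻¹ := by
  have htr : γ 0 0 + γ 1 1 = 2 := by
    rw [Matrix.trace_fin_two] at hγ
    exact hγ
  have hdet : γ 0 0 * γ 1 1 - γ 0 1 * γ 1 0 = 1 := by
    have := γ.det_coe
    rw [Matrix.det_fin_two] at this
    exact this
  obtain ⟨p, q, r, s, hδ, hv1, hv2⟩ := exists_fixed_vector _ _ _ _ htr hdet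
  let δ : SL(2, ℤ) := ⟨!![p, r; q, s], by rw [Matrix.det_fin_two_of]; linarith⟩
  refine ⟨δ, s * (γ 0 0 * r + γ 0 1 * s - r) - r * (γ 1 0 * r + γ 1 1 * s - s), ?_⟩
  rw [eq_mul_inv_iff_mul_eq]
  apply Matrix.SpecialLinearGroup.ext
  intro i j
  rw [Matrix.SpecialLinearGroup.coe_mul, Matrix.SpecialLinearGroup.coe_mul,
    ModularGroup.coe_T_zpow]
  have hδ' : (δ : Matrix (Fin 2) (Fin 2) ℤ) = !![p, r; q, s] := rfl
  rw [hδ']
  fin_cases i <;> fin_cases j
  · simp [Matrix.mul_apply, Fin.sum_univ_two]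
    linear_combination hv1
  · simp [Matrix.mul_apply, Fin.sum_univ_two]
    linear_combination
      (-(γ 0 0 * r + γ 0 1 * s - r)) * hδ + (-r * (r * q - s * p)) * htr + (r * r) * hv2
        + (-r * s) * hv1
  · simp [Matrix.mul_apply, Fin.sum_univ_two]
    linear_combination hv2
  · simp [Matrix.mul_apply, Fin.sum_univ_two]
    linear_combination
      (-(γ 1 0 * r + γ 1 1 * s - s)) * hδ + (-s * (r * q - s * p)) * htr + (s * r) * hv2
        + (-s * s) * hv1

theorem tendsto_T_zpow_smul_atImInfty (k : ℤ) :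
    Tendsto (fun w : ℍ => ModularGroup.T ^ k • w) atImInfty atImInfty := by
  rw [atImInfty, tendsto_comap_iff]
  have : (UpperHalfPlane.im ∘ fun w : ℍ => ModularGroup.T ^ k • w) = UpperHalfPlane.im := by
    funext w
    rw [Function.comp_apply]
    exact ModularGroup.im_T_zpow_smul w k
  rw [this]
  exact tendsto_comap

end Parabolic

/-- An element of `SL(2, ℤ)` with `tr² = 4` is, up to sign, conjugate to a translation. -/
theorem exists_conj_T_zpow (γ : SL(2, ℤ))
    (hγ : (γ : Matrix (Fin 2) (Fin 2) ℤ).trace ^ 2 = 4) :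
    ∃ (δ : SL(2, ℤ)) (k : ℤ),
      γ = δ * ModularGroup.T ^ k * δ⁻¹ ∨ γ = -(δ * ModularGroup.T ^ k * δ⁻¹) := by
  have h : ((γ : Matrix (Fin 2) (Fin 2) ℤ).trace - 2) *
      ((γ : Matrix (Fin 2) (Fin 2) ℤ).trace + 2) = 0 := by
    linear_combination hγ
  rcases mul_eq_zero.mp h with h2 | h2
  · obtain ⟨δ, k, hδ⟩ := Parabolic.exists_conj_of_trace_two γ (by linarith)
    exact ⟨δ, k, Or.inl hδ⟩
  · have hneg : ((-γ : SL(2, ℤ)) : Matrix (Fin 2) (Fin 2) ℤ).trace = 2 := by
      rw [Matrix.SpecialLinearGroup.coe_neg, Matrix.trace_neg]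
      linarith
    obtain ⟨δ, k, hδ⟩ := Parabolic.exists_conj_of_trace_two (-γ) hneg
    exact ⟨δ, k, Or.inr (neg_eq_iff_eq_neg.mp hδ)⟩

/-- The periods of an equivariant primitive of a cusp form vanish on the elements with
`tr² = 4`. -/
theorem period_eq_zero_of_trace_sq (N : ℕ) [NeZero N] (f : CuspForm (Gamma0 N) 2) {F : ℍ → ℂ}
    (hF : HasEquivariantPrimitive N f F) (γ : Gamma0 N)
    (hγ : ((γ : SL(2, ℤ)) : Matrix (Fin 2) (Fin 2) ℤ).trace ^ 2 = 4) :
    hF.2.2.1.period γ = 0 := by
  obtain ⟨δ, k, hδ⟩ := exists_conj_T_zpow (γ : SL(2, ℤ)) hγ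
  obtain ⟨L, hL⟩ := hF.2.2.2 δ
  have hsmul : ∀ w : ℍ, (γ : SL(2, ℤ)) • (δ • w) = δ • (ModularGroup.T ^ k • w) := by
    intro w
    rcases hδ with h | h
    · rw [h, ← mul_smul, inv_mul_cancel_right, mul_smul]
    · rw [h, ModularGroup.SL_neg_smul, ← mul_smul, inv_mul_cancel_right, mul_smul]
  have hconst : ∀ w : ℍ, F (δ • (ModularGroup.T ^ k • w)) - F (δ • w) = hF.2.2.1.period γ := by
    intro w
    rw [← hsmul w]
    exact hF.2.2.1.sub_eq_period γ (δ • w)
  have h1 : Tendsto (fun w : ℍ => F (δ • (ModularGroup.T ^ k • w)) - F (δ • w)) atImInfty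
      (𝓝 (L - L)) :=
    (hL.comp (Parabolic.tendsto_T_zpow_smul_atImInfty k)).sub hL
  have h2 : Tendsto (fun w : ℍ => F (δ • (ModularGroup.T ^ k • w)) - F (δ • w)) atImInfty
      (𝓝 (hF.2.2.1.period γ)) := by
    have : (fun w : ℍ => F (δ • (ModularGroup.T ^ k • w)) - F (δ • w))
        = fun _ => hF.2.2.1.period γ := funext hconst
    rw [this]
    exact tendsto_const_nhds
  have := tendsto_nhds_unique h2 h1
  rw [this, sub_self]

/-- The period map of a cusp form is a parabolic homomorphism. -/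
theorem periodMap_mem_parabolicHoms (N : ℕ) [NeZero N] (f : CuspForm (Gamma0 N) 2) :
    periodMap N f ∈ parabolicHoms ℂ (Gamma0 N) ℂ := by
  classical
  by_cases h : ∃ F : ℍ → ℂ, HasEquivariantPrimitive N f F
  · obtain ⟨F, hF⟩ := h
    obtain ⟨F₀, h₀, heq⟩ := periodMap_def N f hF
    rw [heq, mem_parabolicHoms_iff]
    intro γ hγ
    rw [IsEquivariantPrimitive.periodHom_apply]
    exact period_eq_zero_of_trace_sq N f h₀ γ hγ
  · have : periodMap N f = 0 := by
      unfold periodMap
      rw [dif_neg h]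
    rw [this]
    exact Submodule.zero_mem _

end Fermat.Agent.S21
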