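import Fermat.Agent.S21.CohAbstract
import Fermat.Agent.S21.CohSL2
import Fermat.Agent.S24.CombIndex
import Fermat.Agent.S24.CombCusp
import Fermat.Agent.S24.CombFixed
import Fermat.Prelude.Def_ModularCurve_PeriodHomPair

/-!
# P8-COH (F2): `finrank parabolicHoms ≤ 2 · genusFormula` for `Γ₀(N)`

The space of parabolic homomorphisms `Γ₀(N) → ℂ` (those vanishing on all elements of trace `±2`)
is finite dimensional, of dimension at most `2 g` where `g = genusFormula N`.  This is the
"topological" half of the Eichler–Shimura dimension count.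

Proof: the Shapiro cocycle of a homomorphism `Γ₀(N) → ℂ` (`CohCocycle.lean`) is determined by its
values at `S` and `S * T`; the resulting linear algebra bound (`CohLinAlg.lean`,
`CohAbstract.lean`) is expressed through the numbers of fixed points of `S`, `S * T` and the number
of orbits of `T` on `SL(2, ℤ) ⧸ Γ₀(N)`, which are computed in `S24/Comb*.lean`.
-/

set_option autoImplicit false

namespace Fermat.Agent.S21

open CongruenceSubgroup ModularCurve ModularCurve.Period ModularGroup
open scoped MatrixGroups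

variable (N : ℕ) [NeZero N]

namespace Coh

theorem dedekindPsi_pos : 0 < ModularCurve.dedekindPsi N := by
  unfold ModularCurve.dedekindPsi
  apply Finset.sum_pos'
  · intro d _; exact Nat.zero_le _
  · refine ⟨1, ?_, ?_⟩
    · simp [NeZero.ne N]
    · simp [Nat.pos_of_ne_zero (NeZero.ne N)]

theorem finite_XX : Finite (SL(2, ℤ) ⧸ Gamma0 N) := by
  have h : Nat.card (SL(2, ℤ) ⧸ Gamma0 N) = ModularCurve.dedekindPsi N :=
    Fermat.Agent.S24.card_XX_aux N
  have hpos := dedekindPsi_pos N
  exact Nat.finite_of_card_ne_zero (by omega)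

/-- the natural-number form of the bound for the (larger) space of cusp-killing homs -/
theorem six_mul_finrank_cuspKillingHoms_add_le :
    Module.Finite ℂ (cuspKillingHoms (Gamma0 N) T) ∧
    6 * Module.finrank ℂ (cuspKillingHoms (Gamma0 N) T) + 3 * nuTwo N + 4 * nuThree N
      + 6 * cuspCount N ≤ dedekindPsi N + 12 := by
  haveI := finite_XX N
  have key := coh_abstract (Gamma0 N) S (S * T) closure_S_ST S_pow_four (S_sq_mem_Gamma0 N)
    S_sq_central S_sq_eq_ST_cube
  rw [S_inv_mul_ST] at key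
  refine ⟨key.1, ?_⟩
  have h2 := key.2
  have c1 : Nat.card (SL(2, ℤ) ⧸ Gamma0 N) = dedekindPsi N := Fermat.Agent.S24.card_XX_aux N
  have c2 : Nat.card (MulAction.fixedBy (SL(2, ℤ) ⧸ Gamma0 N) S) = nuTwo N :=
    Fermat.Agent.S24.card_fixed_S N
  have c3 : Nat.card (MulAction.fixedBy (SL(2, ℤ) ⧸ Gamma0 N) (S * T)) = nuThree N :=
    Fermat.Agent.S24.card_fixed_ST N
  have c4 : Nat.card (MulAction.orbitRel.Quotient (Subgroup.zpowers T)
      (SL(2, ℤ) ⧸ Gamma0 N)) = cuspCount N := Fermat.Agent.S24.card_orbits_T N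
  rw [c1, c2, c3, c4] at h2
  exact h2

end Coh

/-- The space of homomorphisms `Γ₀(N) → ℂ` killing all conjugates of powers of `T` is finite
dimensional. -/
theorem finite_cuspKillingHoms : Module.Finite ℂ (cuspKillingHoms (Gamma0 N) T) :=
  (Coh.six_mul_finrank_cuspKillingHoms_add_le N).1

/-- H1 (natural number form): `6 · dim + 3 ν₂ + 4 ν₃ + 6 c ≤ ψ + 12`. -/
theorem six_mul_finrank_parabolicHoms_add_le :
    Module.Finite ℂ ↥(parabolicHoms ℂ (Gamma0 N) ℂ) ∧
    6 * Module.finrank ℂ ↥(parabolicHoms ℂ (Gamma0 N) ℂ) + 3 * nuTwo N + 4 * nuThree N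
      + 6 * cuspCount N ≤ dedekindPsi N + 12 := by
  obtain ⟨hfin, hle⟩ := Coh.six_mul_finrank_cuspKillingHoms_add_le N
  have hsub := parabolicHoms_le_cuspKillingHoms N
  have hinj := Submodule.inclusion_injective hsub
  haveI : Module.Finite ℂ ↥(parabolicHoms ℂ (Gamma0 N) ℂ) :=
    Module.Finite.of_injective (Submodule.inclusion hsub) hinj
  refine ⟨inferInstance, ?_⟩
  have hfr : Module.finrank ℂ ↥(parabolicHoms ℂ (Gamma0 N) ℂ) ≤
      Module.finrank ℂ (cuspKillingHoms (Gamma0 N) T) :=
    LinearMap.finrank_le_finrank_of_injective hinj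
  omega

/-- H1: the parabolic homomorphisms `Γ₀(N) → ℂ` form a finite dimensional space of dimension at
most `2 g`, `g = genusFormula N`. -/
theorem finrank_parabolicHoms_le :
    Module.Finite ℂ ↥(parabolicHoms ℂ (Gamma0 N) ℂ) ∧
    (Module.finrank ℂ ↥(parabolicHoms ℂ (Gamma0 N) ℂ) : ℚ) ≤ 2 * genusFormula N := by
  obtain ⟨hfin, h6⟩ := six_mul_finrank_parabolicHoms_add_le N
  refine ⟨hfin, ?_⟩
  have h6q : (6 : ℚ) * (Module.finrank ℂ ↥(parabolicHoms ℂ (Gamma0 N) ℂ) : ℚ) + 3 * (nuTwo N : ℚ)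
      + 4 * (nuThree N : ℚ) + 6 * (cuspCount N : ℚ) ≤ (dedekindPsi N : ℚ) + 12 := by
    exact_mod_cast h6
  unfold genusFormula
  linarith

/-- `Module.Finite` instance-form of H1, for consumers. -/
theorem finite_parabolicHoms : Module.Finite ℂ ↥(parabolicHoms ℂ (Gamma0 N) ℂ) :=
  (finrank_parabolicHoms_le N).1

end Fermat.Agent.S21
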