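import Fermat.Agent.S21.ES
import Fermat.Agent.S21.Coh

/-!
Consequences of the Eichler–Shimura injectivity (`ES.lean`) and of the cohomological dimension
bound (`Coh.lean`): the upper bound `dim S₂(Γ₀(N)) ≤ genusFormula N`, and the reduction of the
Eichler–Shimura isomorphism to the lower bound `genusFormula N ≤ dim S₂(Γ₀(N))`.
-/

set_option autoImplicit false

namespace Fermat.Agent.S21

open UpperHalfPlane CongruenceSubgroup Filter Topology ModularCurve ModularCurve.Period
open scoped MatrixGroups

/-- The weight two cusp forms of level `Γ₀(N)` are finite dimensional. -/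
theorem finite_cuspForm_two (N : ℕ) [NeZero N] : Module.Finite ℂ (CuspForm (Gamma0 N) 2) := by
  obtain ⟨hfin, -⟩ := finrank_parabolicHoms_le N
  exact (two_mul_finrank_le N).1

/-- Upper bound: `dim S₂(Γ₀(N)) ≤ genusFormula N`. -/
theorem finrank_cuspForm_two_le_genusFormula (N : ℕ) [NeZero N] :
    (Module.finrank ℂ (CuspForm (Gamma0 N) 2) : ℚ) ≤ ModularCurve.genusFormula N := by
  obtain ⟨hfin, hle⟩ := finrank_parabolicHoms_le N
  exact finrank_cuspForm_le_of_parabolic_le N _ hle

/-- The dimension formula follows from the lower bound alone. -/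
theorem finrank_cuspForm_two_eq_of_genusFormula_le (N : ℕ) [NeZero N]
    (h : ModularCurve.genusFormula N ≤ (Module.finrank ℂ (CuspForm (Gamma0 N) 2) : ℚ)) :
    (Module.finrank ℂ (CuspForm (Gamma0 N) 2) : ℚ) = ModularCurve.genusFormula N :=
  le_antisymm (finrank_cuspForm_two_le_genusFormula N) h

/-- **Eichler–Shimura**, reduced to the lower bound `genusFormula N ≤ dim S₂(Γ₀(N))`. -/
theorem eichlerShimura_of_genusFormula_le (N : ℕ) [NeZero N]
    (h : ModularCurve.genusFormula N ≤ (Module.finrank ℂ (CuspForm (Gamma0 N) 2) : ℚ)) :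
    Function.Injective (periodHomPair N) ∧
      LinearMap.range (periodHomPair N) = parabolicHoms ℂ (Gamma0 N) ℂ := by
  obtain ⟨hfin, hle⟩ := finrank_parabolicHoms_le N
  exact eichlerShimura_of_rat_bounds N (ModularCurve.genusFormula N) hle h

end Fermat.Agent.S21
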