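import Mathlib

/-!
P8-COH (L): the finite linear algebra behind `dim H¹_par(Γ₀(N), ℂ) ≤ 2g`.

`X` is a finite set with permutations `s`, `u` (`s² = 1`, `u³ = 1`, `⟨s, u⟩` transitive) and
`t = s⁻¹ u`.  A subspace `P` of pairs `(a, b)` of functions on `X` with `a ∘ s = -a`,
`b + b ∘ u + b ∘ u² = 0`, vanishing `t`-orbit sums of `b - a ∘ t`, and meeting the coboundaries
`(v ∘ s - v, v ∘ u - v)` trivially, has dimension at most `|X| + 2 - o(s) - o(u) - o(t)`, where
`o(σ)` is the number of orbits of `σ`.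
-/

set_option autoImplicit false
set_option linter.unusedSectionVars false

noncomputable section

namespace Fermat.Agent.S21.CohLinAlg

open Finset Module

variable {X : Type*} [Fintype X] [DecidableEq X]

/-- functions invariant under a permutation -/
def invFun (σ : Equiv.Perm X) : Submodule ℂ (X → ℂ) where
  carrier := {f | ∀ x, f (σ x) = f x}
  zero_mem' := fun _ => rfl
  add_mem' := by
    intro f g hf hg x
    simp only [Pi.add_apply, hf x, hg x]
  smul_mem' := by
    intro c f hf x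
    simp only [Pi.smul_apply, hf x]

/-- functions anti-invariant under an involution -/
def spaceA (s : Equiv.Perm X) : Submodule ℂ (X → ℂ) where
  carrier := {a | ∀ x, a (s x) = - a x}
  zero_mem' := fun _ => by simp
  add_mem' := by
    intro f g hf hg x
    simp only [Pi.add_apply, hf x, hg x]; ring
  smul_mem' := by
    intro c f hf x
    simp only [Pi.smul_apply, hf x, smul_eq_mul]; ring

/-- functions killed by the norm of an element of order three -/
def spaceB (u : Equiv.Perm X) : Submodule ℂ (X → ℂ) where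
  carrier := {b | ∀ x, b x + b (u x) + b (u (u x)) = 0}
  zero_mem' := fun _ => by simp
  add_mem' := by
    intro f g hf hg x
    have h1 := hf x
    have h2 := hg x
    simp only [Pi.add_apply]
    linear_combination h1 + h2
  smul_mem' := by
    intro c f hf x
    have h1 := hf x
    simp only [Pi.smul_apply, smul_eq_mul]
    linear_combination c * h1

theorem mem_invFun {σ : Equiv.Perm X} {f : X → ℂ} : f ∈ invFun σ ↔ ∀ x, f (σ x) = f x := Iff.rfl
theorem mem_spaceA {s : Equiv.Perm X} {a : X → ℂ} : a ∈ spaceA s ↔ ∀ x, a (s x) = - a x := Iff.rfl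
theorem mem_spaceB {u : Equiv.Perm X} {b : X → ℂ} :
    b ∈ spaceB u ↔ ∀ x, b x + b (u x) + b (u (u x)) = 0 := Iff.rfl

/-- precomposition with a permutation -/
def pre (σ : Equiv.Perm X) : (X → ℂ) →ₗ[ℂ] (X → ℂ) := LinearMap.funLeft ℂ ℂ σ

@[simp] theorem pre_apply (σ : Equiv.Perm X) (f : X → ℂ) (x : X) : pre σ f x = f (σ x) := rfl

theorem finrank_fun : finrank ℂ (X → ℂ) = Fintype.card X := Module.finrank_fintype_fun_eq_card ℂ

theorem ker_id_sub_pre (σ : Equiv.Perm X) : LinearMap.ker (LinearMap.id - pre σ) = invFun σ := by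
  ext f
  simp only [LinearMap.mem_ker, LinearMap.sub_apply, LinearMap.id_apply, mem_invFun]
  constructor
  · intro h x
    have := congrFun h x
    simp only [Pi.sub_apply, pre_apply, Pi.zero_apply] at this
    exact (sub_eq_zero.mp this).symm
  · intro h
    ext x
    simp [h x]

theorem range_id_sub_pre_s (s : Equiv.Perm X) (hs : s * s = 1) :
    LinearMap.range (LinearMap.id - pre s) = spaceA s := by
  have hss : ∀ x, s (s x) = x := fun x => by
    have := congrArg (fun σ : Equiv.Perm X => σ x) hs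
    simpa using this
  ext a
  simp only [LinearMap.mem_range, mem_spaceA]
  constructor
  · rintro ⟨f, rfl⟩ x
    simp [hss x]
  · intro h
    refine ⟨(1 / 2 : ℂ) • a, ?_⟩
    ext x
    simp only [LinearMap.sub_apply, LinearMap.id_apply, Pi.sub_apply, Pi.smul_apply, pre_apply,
      smul_eq_mul, h x]
    ring

theorem range_id_sub_pre_u (u : Equiv.Perm X) (hu : u * u * u = 1) :
    LinearMap.range (LinearMap.id - pre u) = spaceB u := by
  have huuu : ∀ x, u (u (u x)) = x := fun x => by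
    have := congrArg (fun σ : Equiv.Perm X => σ x) hu
    simpa using this
  ext b
  simp only [LinearMap.mem_range, mem_spaceB]
  constructor
  · rintro ⟨f, rfl⟩ x
    simp only [LinearMap.sub_apply, LinearMap.id_apply, Pi.sub_apply, pre_apply, huuu x]
    ring
  · intro h
    refine ⟨(2 / 3 : ℂ) • b + (1 / 3 : ℂ) • pre u b, ?_⟩
    ext x
    have h1 := h x
    simp only [LinearMap.sub_apply, LinearMap.id_apply, Pi.sub_apply, Pi.smul_apply, pre_apply,
      smul_eq_mul, Pi.add_apply, map_add, map_smul]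
    linear_combination (-1 / 3 : ℂ) * h1

theorem finrank_spaceA_add (s : Equiv.Perm X) (hs : s * s = 1) :
    finrank ℂ (spaceA s) + finrank ℂ (invFun s) = Fintype.card X := by
  have := LinearMap.finrank_range_add_finrank_ker (LinearMap.id - pre s)
  rw [ker_id_sub_pre, range_id_sub_pre_s s hs, finrank_fun] at this
  exact this

theorem finrank_spaceB_add (u : Equiv.Perm X) (hu : u * u * u = 1) :
    finrank ℂ (spaceB u) + finrank ℂ (invFun u) = Fintype.card X := by
  have := LinearMap.finrank_range_add_finrank_ker (LinearMap.id - pre u)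
  rw [ker_id_sub_pre, range_id_sub_pre_u u hu, finrank_fun] at this
  exact this

/-! ### the norm operator -/

/-- the norm operator `f ↦ ∑_{k<m} f ∘ σ^k` -/
def normOp (σ : Equiv.Perm X) (m : ℕ) : (X → ℂ) →ₗ[ℂ] (X → ℂ) := ∑ k ∈ Finset.range m, pre (σ ^ k)

theorem normOp_apply (σ : Equiv.Perm X) (m : ℕ) (f : X → ℂ) (x : X) :
    normOp σ m f x = ∑ k ∈ Finset.range m, f ((σ ^ k) x) := by
  simp [normOp, LinearMap.sum_apply, Finset.sum_apply]

theorem sum_shift {M : Type*} [AddCommGroup M] (g : ℕ → M) (m : ℕ) (h : g m = g 0) :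
    ∑ k ∈ Finset.range m, g (k + 1) = ∑ k ∈ Finset.range m, g k := by
  have h1 := Finset.sum_range_succ' g m
  have h2 := Finset.sum_range_succ g m
  rw [h1, h] at h2
  exact add_right_cancel h2

theorem normOp_pre (σ : Equiv.Perm X) (m : ℕ) (hσ : σ ^ m = 1) (f : X → ℂ) :
    normOp σ m (pre σ f) = normOp σ m f := by
  ext x
  rw [normOp_apply, normOp_apply]
  have : ∀ k, pre σ f ((σ ^ k) x) = f ((σ ^ (k + 1)) x) := by
    intro k
    rw [pre_apply, pow_succ', Equiv.Perm.mul_apply]
  simp only [this]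
  exact sum_shift (fun k => f ((σ ^ k) x)) m (by simp [hσ])

theorem normOp_mem_invFun (σ : Equiv.Perm X) (m : ℕ) (hσ : σ ^ m = 1) (f : X → ℂ) :
    normOp σ m f ∈ invFun σ := by
  intro x
  rw [normOp_apply, normOp_apply]
  have : ∀ k, f ((σ ^ k) (σ x)) = f ((σ ^ (k + 1)) x) := by
    intro k
    rw [pow_succ, Equiv.Perm.mul_apply]
  simp only [this]
  exact sum_shift (fun k => f ((σ ^ k) x)) m (by simp [hσ])

theorem invFun_pow {σ : Equiv.Perm X} {f : X → ℂ} (hf : f ∈ invFun σ) (k : ℕ) (x : X) :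
    f ((σ ^ k) x) = f x := by
  induction k with
  | zero => simp
  | succ k ih => rw [pow_succ', Equiv.Perm.mul_apply, hf, ih]

theorem normOp_of_mem_invFun (σ : Equiv.Perm X) (m : ℕ) {f : X → ℂ} (hf : f ∈ invFun σ) :
    normOp σ m f = (m : ℂ) • f := by
  ext x
  rw [normOp_apply]
  simp only [invFun_pow hf, Finset.sum_const, Finset.card_range, Pi.smul_apply, smul_eq_mul,
    nsmul_eq_mul]

/-! ### counting fixed points -/

/-- the number of fixed points of a permutation -/
def fixCount (σ : Equiv.Perm X) : ℕ := (Finset.univ.filter fun x => σ x = x).card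

theorem trace_pre (σ : Equiv.Perm X) : LinearMap.trace ℂ (X → ℂ) (pre σ) = (fixCount σ : ℂ) := by
  rw [LinearMap.trace_eq_matrix_trace ℂ (Pi.basisFun ℂ X), Matrix.trace]
  simp only [Matrix.diag_apply, LinearMap.toMatrix_apply, Pi.basisFun_apply, Pi.basisFun_repr,
    pre_apply, Pi.single_apply]
  rw [fixCount, Finset.card_filter]
  push_cast
  rfl

theorem trace_normOp (σ : Equiv.Perm X) (m : ℕ) :
    LinearMap.trace ℂ (X → ℂ) (normOp σ m) = ∑ k ∈ Finset.range m, (fixCount (σ ^ k) : ℂ) := by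
  rw [normOp, map_sum]
  simp only [trace_pre]

theorem isProj_normOp (σ : Equiv.Perm X) (m : ℕ) (hm : m ≠ 0) (hσ : σ ^ m = 1) :
    LinearMap.IsProj (invFun σ) ((m : ℂ)⁻¹ • normOp σ m) := by
  constructor
  · intro f
    exact (invFun σ).smul_mem _ (normOp_mem_invFun σ m hσ f)
  · intro f hf
    rw [LinearMap.smul_apply, normOp_of_mem_invFun σ m hf, smul_smul,
      inv_mul_cancel₀ (Nat.cast_ne_zero.mpr hm), one_smul]

theorem mul_finrank_invFun (σ : Equiv.Perm X) (m : ℕ) (hm : m ≠ 0) (hσ : σ ^ m = 1) :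
    m * finrank ℂ (invFun σ) = ∑ k ∈ Finset.range m, fixCount (σ ^ k) := by
  have h := (isProj_normOp σ m hm hσ).trace
  rw [map_smul, trace_normOp, smul_eq_mul] at h
  have hm' : (m : ℂ) ≠ 0 := Nat.cast_ne_zero.mpr hm
  have h2 : ((m * finrank ℂ (invFun σ) : ℕ) : ℂ) =
      ((∑ k ∈ Finset.range m, fixCount (σ ^ k) : ℕ) : ℂ) := by
    push_cast
    rw [← h]
    field_simp
  exact_mod_cast h2


/-! ### transitivity -/

theorem pre_single (σ : Equiv.Perm X) (x : X) :
    pre σ (Pi.single (σ x) (1 : ℂ)) = Pi.single x (1 : ℂ) := by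
  ext y
  simp only [pre_apply, Pi.single_apply, EmbeddingLike.apply_eq_iff_eq]

theorem single_sub_single_mem_range (σ : Equiv.Perm X) (x : X) :
    (Pi.single (σ x) (1 : ℂ) - Pi.single x (1 : ℂ) : X → ℂ) ∈
      LinearMap.range (LinearMap.id - pre σ) :=
  ⟨Pi.single (σ x) (1 : ℂ), by simp [pre_single]⟩

theorem single_sub_single_mem (s u : Equiv.Perm X) (hs : s * s = 1) (hu : u * u * u = 1)
    (g : Equiv.Perm X) (hg : g ∈ Subgroup.closure ({s, u} : Set (Equiv.Perm X))) (x : X) :
    (Pi.single (g x) (1 : ℂ) - Pi.single x (1 : ℂ) : X → ℂ) ∈ spaceA s ⊔ spaceB u := by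
  induction hg using Subgroup.closure_induction generalizing x with
  | mem g hg =>
    rcases hg with rfl | rfl
    · apply Submodule.mem_sup_left
      rw [← range_id_sub_pre_s _ hs]
      exact single_sub_single_mem_range _ x
    · apply Submodule.mem_sup_right
      rw [← range_id_sub_pre_u _ hu]
      exact single_sub_single_mem_range _ x
  | one => simp
  | mul g h _ _ ihg ihh =>
    have h1 := ihg (h x)
    have h2 := ihh x
    have : (Pi.single ((g * h) x) (1 : ℂ) - Pi.single x (1 : ℂ) : X → ℂ) =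
        (Pi.single (g (h x)) (1 : ℂ) - Pi.single (h x) (1 : ℂ)) +
          (Pi.single (h x) (1 : ℂ) - Pi.single x (1 : ℂ)) := by
      rw [Equiv.Perm.mul_apply]; abel
    rw [this]
    exact Submodule.add_mem _ h1 h2
  | inv g _ ih =>
    have h1 := ih (g⁻¹ x)
    have e : g (g⁻¹ x) = x := by simp
    rw [e] at h1
    have : (Pi.single (g⁻¹ x) (1 : ℂ) - Pi.single x (1 : ℂ) : X → ℂ) =
        -(Pi.single x (1 : ℂ) - Pi.single (g⁻¹ x) (1 : ℂ)) := by abel
    rw [this]
    exact Submodule.neg_mem _ h1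

theorem invariant_of_mem_closure (s u : Equiv.Perm X) {f : X → ℂ} (hfs : f ∈ invFun s)
    (hfu : f ∈ invFun u) (g : Equiv.Perm X)
    (hg : g ∈ Subgroup.closure ({s, u} : Set (Equiv.Perm X))) (x : X) : f (g x) = f x := by
  induction hg using Subgroup.closure_induction generalizing x with
  | mem g hg =>
    rcases hg with rfl | rfl
    · exact hfs x
    · exact hfu x
  | one => simp
  | mul g h _ _ ihg ihh => rw [Equiv.Perm.mul_apply, ihg, ihh]
  | inv g _ ih =>
    have := ih (g⁻¹ x)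
    have e : g (g⁻¹ x) = x := by simp
    rw [e] at this
    exact this.symm

/-- the sum functional -/
def sumFun : (X → ℂ) →ₗ[ℂ] ℂ := ∑ x : X, LinearMap.proj x

theorem sumFun_apply (f : X → ℂ) : sumFun f = ∑ x, f x := by
  simp [sumFun, LinearMap.sum_apply]

theorem ker_sumFun_le (s u : Equiv.Perm X) (hs : s * s = 1) (hu : u * u * u = 1)
    (htr : ∀ x y : X, ∃ g ∈ Subgroup.closure ({s, u} : Set (Equiv.Perm X)), g x = y) :
    LinearMap.ker (sumFun (X := X)) ≤ spaceA s ⊔ spaceB u := by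
  intro f hf
  rw [LinearMap.mem_ker, sumFun_apply] at hf
  rcases isEmpty_or_nonempty X with hX | ⟨⟨x0⟩⟩
  · have : f = 0 := by
      ext x
      exact (IsEmpty.false x).elim
    rw [this]
    exact Submodule.zero_mem _
  · have hrep : f = ∑ x, f x • (Pi.single x (1 : ℂ) - Pi.single x0 (1 : ℂ) : X → ℂ) := by
      ext y
      simp only [Finset.sum_apply, Pi.smul_apply, Pi.sub_apply, Pi.single_apply, smul_eq_mul,
        mul_sub, Finset.sum_sub_distrib]
      rw [← Finset.sum_mul, hf]
      simp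
    rw [hrep]
    refine Submodule.sum_mem _ fun x _ => Submodule.smul_mem _ _ ?_
    obtain ⟨g, hg, hgx⟩ := htr x0 x
    rw [← hgx]
    exact single_sub_single_mem s u hs hu g hg x0

theorem finrank_inf_ker_sumFun (I : Submodule ℂ (X → ℂ)) :
    finrank ℂ I ≤ finrank ℂ ↥(I ⊓ LinearMap.ker (sumFun (X := X))) + 1 := by
  have h1 := Submodule.finrank_sup_add_finrank_inf_eq I (LinearMap.ker (sumFun (X := X)))
  have h2 := LinearMap.finrank_range_add_finrank_ker (sumFun (X := X))
  have h3 : finrank ℂ (LinearMap.range (sumFun (X := X))) ≤ 1 := by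
    have := Submodule.finrank_le (LinearMap.range (sumFun (X := X)))
    simpa using this
  have h4 := Submodule.finrank_le (I ⊔ LinearMap.ker (sumFun (X := X)))
  omega


/-! ### the orbit-sum map -/

/-- the comparison map `(a, b) ↦ N_t (b - a)` -/
def lam (s u t : Equiv.Perm X) (m : ℕ) : ↥(spaceA s) × ↥(spaceB u) →ₗ[ℂ] (X → ℂ) :=
  normOp t m ∘ₗ ((spaceB u).subtype ∘ₗ LinearMap.snd ℂ _ _ -
    (spaceA s).subtype ∘ₗ LinearMap.fst ℂ _ _)

theorem lam_apply (s u t : Equiv.Perm X) (m : ℕ) (p : ↥(spaceA s) × ↥(spaceB u)) :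
    lam s u t m p = normOp t m ((p.2 : X → ℂ) - (p.1 : X → ℂ)) := rfl

theorem le_range_lam (s u t : Equiv.Perm X) (m : ℕ) (hs : s * s = 1) (hu : u * u * u = 1)
    (htr : ∀ x y : X, ∃ g ∈ Subgroup.closure ({s, u} : Set (Equiv.Perm X)), g x = y)
    (hm : m ≠ 0) :
    invFun t ⊓ LinearMap.ker (sumFun (X := X)) ≤ LinearMap.range (lam s u t m) := by
  rintro f ⟨hf1, hf2⟩
  have hf3 : (m : ℂ)⁻¹ • f ∈ LinearMap.ker (sumFun (X := X)) := Submodule.smul_mem _ _ hf2
  obtain ⟨a, ha, b, hb, hab⟩ := Submodule.mem_sup.mp (ker_sumFun_le s u hs hu htr hf3)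
  refine ⟨(⟨-a, Submodule.neg_mem _ ha⟩, ⟨b, hb⟩), ?_⟩
  rw [lam_apply]
  have h1 : ((b : X → ℂ) - (-a)) = (m : ℂ)⁻¹ • f := by rw [sub_neg_eq_add, add_comm, hab]
  simp only
  rw [h1, map_smul, normOp_of_mem_invFun t m hf1, smul_smul,
    inv_mul_cancel₀ (Nat.cast_ne_zero.mpr hm), one_smul]

theorem finrank_ker_lam (s u t : Equiv.Perm X) (m : ℕ) (hs : s * s = 1) (hu : u * u * u = 1)
    (htr : ∀ x y : X, ∃ g ∈ Subgroup.closure ({s, u} : Set (Equiv.Perm X)), g x = y)
    (hm : m ≠ 0) :
    finrank ℂ (LinearMap.ker (lam s u t m)) + finrank ℂ (invFun t) ≤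
      finrank ℂ (spaceA s) + finrank ℂ (spaceB u) + 1 := by
  have h1 := LinearMap.finrank_range_add_finrank_ker (lam s u t m)
  rw [Module.finrank_prod] at h1
  have h2 := Submodule.finrank_mono (le_range_lam s u t m hs hu htr hm)
  have h3 := finrank_inf_ker_sumFun (invFun t)
  omega

/-! ### coboundaries -/

/-- the coboundary map `v ↦ (v ∘ s - v, v ∘ u - v)` -/
def bet (s u : Equiv.Perm X) (hs : s * s = 1) (hu : u * u * u = 1) :
    (X → ℂ) →ₗ[ℂ] ↥(spaceA s) × ↥(spaceB u) :=
  LinearMap.prod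
    ((pre s - LinearMap.id).codRestrict (spaceA s) (fun v => by
      have hss : ∀ x, s (s x) = x := fun x => by
        have := congrArg (fun σ : Equiv.Perm X => σ x) hs
        simpa using this
      intro x
      simp [hss x]))
    ((pre u - LinearMap.id).codRestrict (spaceB u) (fun v => by
      have huuu : ∀ x, u (u (u x)) = x := fun x => by
        have := congrArg (fun σ : Equiv.Perm X => σ x) hu
        simpa using this
      intro x
      simp only [LinearMap.sub_apply, LinearMap.id_apply, Pi.sub_apply, pre_apply, huuu x]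
      ring))

theorem bet_fst (s u : Equiv.Perm X) (hs : s * s = 1) (hu : u * u * u = 1) (v : X → ℂ) (x : X) :
    ((bet s u hs hu v).1 : X → ℂ) x = v (s x) - v x := rfl

theorem bet_snd (s u : Equiv.Perm X) (hs : s * s = 1) (hu : u * u * u = 1) (v : X → ℂ) (x : X) :
    ((bet s u hs hu v).2 : X → ℂ) x = v (u x) - v x := rfl

theorem finrank_ker_bet (s u : Equiv.Perm X) (hs : s * s = 1) (hu : u * u * u = 1)
    (htr : ∀ x y : X, ∃ g ∈ Subgroup.closure ({s, u} : Set (Equiv.Perm X)), g x = y) :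
    finrank ℂ (LinearMap.ker (bet s u hs hu)) ≤ 1 := by
  have hle : LinearMap.ker (bet s u hs hu) ≤ Submodule.span ℂ {(fun _ => 1 : X → ℂ)} := by
    intro v hv
    rw [LinearMap.mem_ker] at hv
    have hvs : v ∈ invFun s := fun x => by
      have := bet_fst s u hs hu v x
      rw [hv] at this
      exact (sub_eq_zero.mp this.symm)
    have hvu : v ∈ invFun u := fun x => by
      have := bet_snd s u hs hu v x
      rw [hv] at this
      exact (sub_eq_zero.mp this.symm)
    rcases isEmpty_or_nonempty X with hX | ⟨⟨x0⟩⟩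
    · have : v = 0 := by
        ext x
        exact (IsEmpty.false x).elim
      rw [this]
      exact Submodule.zero_mem _
    · rw [Submodule.mem_span_singleton]
      refine ⟨v x0, ?_⟩
      ext y
      obtain ⟨g, hg, hgy⟩ := htr x0 y
      rw [← hgy, invariant_of_mem_closure s u hvs hvu g hg x0]
      simp
  calc finrank ℂ (LinearMap.ker (bet s u hs hu))
      ≤ finrank ℂ (Submodule.span ℂ {(fun _ => 1 : X → ℂ)}) := Submodule.finrank_mono hle
    _ ≤ 1 := by
        have := finrank_span_le_card (R := ℂ) ({(fun _ => 1 : X → ℂ)} : Set (X → ℂ))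
        simpa using this

theorem range_bet_le (s u : Equiv.Perm X) (hs : s * s = 1) (hu : u * u * u = 1) (m : ℕ)
    (hm : (s⁻¹ * u) ^ m = 1) :
    LinearMap.range (bet s u hs hu) ≤ LinearMap.ker (lam s u (s⁻¹ * u) m) := by
  rintro _ ⟨v, rfl⟩
  rw [LinearMap.mem_ker, lam_apply]
  have h1 : (((bet s u hs hu v).2 : X → ℂ) - ((bet s u hs hu v).1 : X → ℂ)) =
      pre (s⁻¹ * u) (pre s v) - pre s v := by
    ext x
    simp only [Pi.sub_apply, bet_fst, bet_snd, pre_apply, Equiv.Perm.mul_apply]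
    have : s (s⁻¹ (u x)) = u x := by simp
    rw [this]
    ring
  rw [h1, map_sub, normOp_pre _ _ hm, sub_self]

/-! ### the main bound -/

theorem core_bound (s u : Equiv.Perm X) (hs : s * s = 1) (hu : u * u * u = 1)
    (htr : ∀ x y : X, ∃ g ∈ Subgroup.closure ({s, u} : Set (Equiv.Perm X)), g x = y)
    (P : Submodule ℂ ((X → ℂ) × (X → ℂ)))
    (hP1 : ∀ p ∈ P, ∀ x, p.1 (s x) = - p.1 x)
    (hP2 : ∀ p ∈ P, ∀ x, p.2 x + p.2 (u x) + p.2 (u (u x)) = 0)
    (hP3 : ∀ p ∈ P, ∀ x, ∑ k ∈ Finset.range (orderOf (s⁻¹ * u)),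
      (p.2 (((s⁻¹ * u) ^ k) x) - p.1 ((s⁻¹ * u) (((s⁻¹ * u) ^ k) x))) = 0)
    (hP4 : ∀ v : X → ℂ,
      ((fun x => v (s x) - v x, fun x => v (u x) - v x) : (X → ℂ) × (X → ℂ)) ∈ P →
        ((fun x => v (s x) - v x, fun x => v (u x) - v x) : (X → ℂ) × (X → ℂ)) = 0) :
    finrank ℂ P + finrank ℂ (invFun s) + finrank ℂ (invFun u) + finrank ℂ (invFun (s⁻¹ * u)) ≤
      Fintype.card X + 2 := by
  set t := s⁻¹ * u with ht
  set m := orderOf t with hm
  have hm0 : m ≠ 0 := (orderOf_pos t).ne'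
  have htm : t ^ m = 1 := pow_orderOf_eq_one t
  -- the embedding of `P`
  let κ : ↥P →ₗ[ℂ] ↥(spaceA s) × ↥(spaceB u) :=
    LinearMap.prod
      ((LinearMap.fst ℂ _ _ ∘ₗ P.subtype).codRestrict (spaceA s) (fun p => hP1 p.1 p.2))
      ((LinearMap.snd ℂ _ _ ∘ₗ P.subtype).codRestrict (spaceB u) (fun p => hP2 p.1 p.2))
  have hκ1 : ∀ p : ↥P, ((κ p).1 : X → ℂ) = (p : (X → ℂ) × (X → ℂ)).1 := fun _ => rfl
  have hκ2 : ∀ p : ↥P, ((κ p).2 : X → ℂ) = (p : (X → ℂ) × (X → ℂ)).2 := fun _ => rfl
  have hκinj : Function.Injective κ := by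
    intro p p' h
    apply Subtype.ext
    apply Prod.ext
    · rw [← hκ1, ← hκ1, h]
    · rw [← hκ2, ← hκ2, h]
  have hκker : LinearMap.range κ ≤ LinearMap.ker (lam s u t m) := by
    rintro _ ⟨p, rfl⟩
    rw [LinearMap.mem_ker, lam_apply, hκ1, hκ2, map_sub]
    have h3 := hP3 p.1 p.2
    have h4 : normOp t m ((p : (X → ℂ) × (X → ℂ)).2 - pre t (p : (X → ℂ) × (X → ℂ)).1) = 0 := by
      ext x
      rw [normOp_apply]
      exact h3 x
    rw [map_sub, normOp_pre _ _ htm] at h4
    exact h4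
  have hdisj : LinearMap.range κ ⊓ LinearMap.range (bet s u hs hu) = ⊥ := by
    rw [eq_bot_iff]
    rintro _ ⟨⟨p, rfl⟩, ⟨v, hv⟩⟩
    have hpv : (p : (X → ℂ) × (X → ℂ)) =
        ((fun x => v (s x) - v x, fun x => v (u x) - v x) : (X → ℂ) × (X → ℂ)) := by
      apply Prod.ext
      · rw [← hκ1, ← hv]; rfl
      · rw [← hκ2, ← hv]; rfl
    have h0 := hP4 v (hpv ▸ p.2)
    rw [← hpv] at h0
    have hp0 : p = 0 := Subtype.ext h0
    rw [hp0, map_zero]
    exact Submodule.zero_mem _
  have e1 : finrank ℂ (LinearMap.range κ) = finrank ℂ P := LinearMap.finrank_range_of_inj hκinj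
  have e2 := Submodule.finrank_sup_add_finrank_inf_eq (LinearMap.range κ)
    (LinearMap.range (bet s u hs hu))
  rw [hdisj, finrank_bot, add_zero] at e2
  have e3 : finrank ℂ ↥(LinearMap.range κ ⊔ LinearMap.range (bet s u hs hu)) ≤
      finrank ℂ (LinearMap.ker (lam s u t m)) :=
    Submodule.finrank_mono (sup_le hκker (range_bet_le s u hs hu m htm))
  have e4 := LinearMap.finrank_range_add_finrank_ker (bet s u hs hu)
  rw [finrank_fun] at e4
  have e5 := finrank_ker_bet s u hs hu htr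
  have e6 := finrank_ker_lam s u t m hs hu htr hm0
  have e7 := finrank_spaceA_add s hs
  have e8 := finrank_spaceB_add u hu
  omega


/-! ### counting orbits -/

theorem finrank_invFun_eq_card (σ : Equiv.Perm X) {Q : Type*} [Finite Q] (q : X → Q)
    (hq : Function.Surjective q) (hqσ : ∀ x y, q x = q y ↔ ∃ k : ℕ, (σ ^ k) x = y) :
    finrank ℂ (invFun σ) = Nat.card Q := by
  have := Fintype.ofFinite Q
  have hinj : Function.Injective (LinearMap.funLeft ℂ ℂ q) :=
    LinearMap.funLeft_injective_of_surjective ℂ ℂ q hq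
  have hrange : LinearMap.range (LinearMap.funLeft ℂ ℂ q) = invFun σ := by
    ext f
    simp only [LinearMap.mem_range, mem_invFun]
    constructor
    · rintro ⟨g, rfl⟩ x
      simp only [LinearMap.funLeft_apply]
      congr 1
      exact ((hqσ x (σ x)).mpr ⟨1, by simp⟩).symm
    · intro hf
      refine ⟨fun z => f (Function.surjInv hq z), ?_⟩
      ext x
      simp only [LinearMap.funLeft_apply]
      obtain ⟨k, hk⟩ := (hqσ (Function.surjInv hq (q x)) x).mp (Function.surjInv_eq hq (q x))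
      have h1 := invFun_pow hf k (Function.surjInv hq (q x))
      rw [hk] at h1
      exact h1.symm
  rw [← hrange, LinearMap.finrank_range_of_inj hinj, Module.finrank_fintype_fun_eq_card,
    Nat.card_eq_fintype_card]

theorem fixCount_one : fixCount (1 : Equiv.Perm X) = Fintype.card X := by
  simp [fixCount]

theorem fixCount_eq_natCard (σ : Equiv.Perm X) : fixCount σ = Nat.card {x // σ x = x} := by
  rw [Nat.card_eq_fintype_card, Fintype.card_subtype, fixCount]

theorem two_mul_finrank_invFun (s : Equiv.Perm X) (hs : s * s = 1) :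
    2 * finrank ℂ (invFun s) = Fintype.card X + fixCount s := by
  have h := mul_finrank_invFun s 2 (by norm_num) (by rw [pow_two]; exact hs)
  rw [Finset.sum_range_succ, Finset.sum_range_one, pow_zero, pow_one, fixCount_one] at h
  exact h

theorem three_mul_finrank_invFun (u : Equiv.Perm X) (hu : u * u * u = 1) :
    3 * finrank ℂ (invFun u) = Fintype.card X + 2 * fixCount u := by
  have huuu : ∀ x, u (u (u x)) = x := fun x => by
    have := congrArg (fun σ : Equiv.Perm X => σ x) hu
    simpa using this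
  have h := mul_finrank_invFun u 3 (by norm_num) (by rw [pow_succ, pow_two]; exact hu)
  rw [Finset.sum_range_succ, Finset.sum_range_succ, Finset.sum_range_one, pow_zero, pow_one,
    fixCount_one] at h
  have h2 : fixCount (u ^ 2) = fixCount u := by
    unfold fixCount
    congr 1
    ext x
    simp only [Finset.mem_filter, Finset.mem_univ, true_and, pow_two, Equiv.Perm.mul_apply]
    constructor
    · intro hx
      have := huuu x
      rw [hx] at this
      exact this
    · intro hx
      rw [hx, hx]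
  rw [h2] at h
  omega

end Fermat.Agent.S21.CohLinAlg

namespace Fermat.Agent.S21

open CohLinAlg in
/-- The linear algebra bound behind `dim H¹_par ≤ 2g` (Scott's lemma with parabolic
conditions): orbit count form. -/
theorem coh_linalg_bound_orbit {X : Type*} [Finite X] (s u : Equiv.Perm X) (hs : s * s = 1)
    (hu : u * u * u = 1)
    (htrans : ∀ x y : X, ∃ g ∈ Subgroup.closure ({s, u} : Set (Equiv.Perm X)), g x = y)
    (P : Submodule ℂ ((X → ℂ) × (X → ℂ)))
    (hP1 : ∀ p ∈ P, ∀ x, p.1 (s x) = - p.1 x)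
    (hP2 : ∀ p ∈ P, ∀ x, p.2 x + p.2 (u x) + p.2 (u (u x)) = 0)
    (hP3 : ∀ p ∈ P, ∀ x, ∑ k ∈ Finset.range (orderOf (s⁻¹ * u)),
      (p.2 (((s⁻¹ * u) ^ k) x) - p.1 ((s⁻¹ * u) (((s⁻¹ * u) ^ k) x))) = 0)
    (hP4 : ∀ v : X → ℂ,
      ((fun x => v (s x) - v x, fun x => v (u x) - v x) : (X → ℂ) × (X → ℂ)) ∈ P →
        ((fun x => v (s x) - v x, fun x => v (u x) - v x) : (X → ℂ) × (X → ℂ)) = 0) :
    Module.finrank ℂ P + Nat.card (Quotient (Equiv.Perm.SameCycle.setoid s)) +
        Nat.card (Quotient (Equiv.Perm.SameCycle.setoid u)) +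
        Nat.card (Quotient (Equiv.Perm.SameCycle.setoid (s⁻¹ * u))) ≤ Nat.card X + 2 := by
  classical
  have := Fintype.ofFinite X
  have hcore := core_bound s u hs hu htrans P hP1 hP2 hP3 hP4
  have key : ∀ σ : Equiv.Perm X,
      Module.finrank ℂ (invFun σ) = Nat.card (Quotient (Equiv.Perm.SameCycle.setoid σ)) := by
    intro σ
    refine finrank_invFun_eq_card σ (Quotient.mk (Equiv.Perm.SameCycle.setoid σ))
      Quotient.mk_surjective (fun x y => ?_)
    rw [Quotient.eq]
    constructor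
    · intro h
      exact Equiv.Perm.SameCycle.exists_nat_pow_eq h
    · rintro ⟨k, hk⟩
      exact ⟨(k : ℤ), by rw [zpow_natCast]; exact hk⟩
  rw [key, key, key] at hcore
  rw [Nat.card_eq_fintype_card (α := X)]
  exact hcore

open CohLinAlg in
/-- The linear algebra bound behind `dim H¹_par ≤ 2g` (Scott's lemma with parabolic
conditions): fixed point form. -/
theorem coh_linalg_bound {X : Type*} [Finite X] (s u : Equiv.Perm X) (hs : s * s = 1)
    (hu : u * u * u = 1)
    (htrans : ∀ x y : X, ∃ g ∈ Subgroup.closure ({s, u} : Set (Equiv.Perm X)), g x = y)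
    {Q : Type*} [Finite Q] (q : X → Q) (hq : Function.Surjective q)
    (hqt : ∀ x y, q x = q y ↔ ∃ k : ℕ, ((s⁻¹ * u) ^ k) x = y)
    (P : Submodule ℂ ((X → ℂ) × (X → ℂ)))
    (hP1 : ∀ p ∈ P, ∀ x, p.1 (s x) = - p.1 x)
    (hP2 : ∀ p ∈ P, ∀ x, p.2 x + p.2 (u x) + p.2 (u (u x)) = 0)
    (hP3 : ∀ p ∈ P, ∀ x, ∑ k ∈ Finset.range (orderOf (s⁻¹ * u)),
      (p.2 (((s⁻¹ * u) ^ k) x) - p.1 ((s⁻¹ * u) (((s⁻¹ * u) ^ k) x))) = 0)
    (hP4 : ∀ v : X → ℂ, ((fun x => v (s x) - v x, fun x => v (u x) - v x) : (X → ℂ) × (X → ℂ)) ∈ P →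
        ((fun x => v (s x) - v x, fun x => v (u x) - v x) : (X → ℂ) × (X → ℂ)) = 0) :
    6 * Module.finrank ℂ P + 3 * Nat.card {x // s x = x} + 4 * Nat.card {x // u x = x} + 6 * Nat.card Q ≤ Nat.card X + 12 := by
  classical
  have := Fintype.ofFinite X
  have hcore := core_bound s u hs hu htrans P hP1 hP2 hP3 hP4
  have h2 := two_mul_finrank_invFun s hs
  have h3 := three_mul_finrank_invFun u hu
  have ht := finrank_invFun_eq_card (s⁻¹ * u) q hq hqt
  rw [fixCount_eq_natCard] at h2 h3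
  rw [Nat.card_eq_fintype_card (α := X)]
  omega

end Fermat.Agent.S21

end
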