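import Mathlib
import Fermat.Agent.S21.CohCocycle
import Fermat.Agent.S21.CohLinAlg

/-!
P8-COH (F1): the abstract cohomological dimension bound.  For a group `G` generated by `s`, `u`
with `s ^ 2 = u ^ 3` central in a finite index subgroup `Γ` and `s ^ 4 = 1`, the space of
homomorphisms `Γ → ℂ` killing the conjugates of powers of `t = s⁻¹ * u` is finite dimensional,
with an explicit bound in terms of fixed point and orbit counts on `G ⧸ Γ`.
-/

set_option autoImplicit false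

namespace Fermat.Agent.S21

namespace CohGlue

section Action

variable {G : Type*} [Group G] {X : Type*} [MulAction G X]

/-- powers of the permutation attached to a group element -/
theorem toPerm_pow_apply (g : G) (k : ℕ) (x : X) :
    ((MulAction.toPermHom G X g) ^ k) x = g ^ k • x := by
  rw [← map_pow]
  rfl

/-- the orbit relation of the cyclic group generated by `t` on a finite set, via natural powers
of the attached permutation -/
theorem orbitRel_zpowers_iff [Finite X] (t : G) (x y : X) :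
    (Quotient.mk'' x : MulAction.orbitRel.Quotient (Subgroup.zpowers t) X) = Quotient.mk'' y ↔
      ∃ k : ℕ, ((MulAction.toPermHom G X t) ^ k) x = y := by
  rw [Quotient.eq'']
  change x ∈ MulAction.orbit (Subgroup.zpowers t) y ↔ _
  constructor
  · rintro ⟨⟨g, hg⟩, hgx⟩
    obtain ⟨n, rfl⟩ := Subgroup.mem_zpowers_iff.mp hg
    change t ^ n • y = x at hgx
    -- the permutation has finite order
    have hfin : IsOfFinOrder (MulAction.toPermHom G X t) := isOfFinOrder_of_finite _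
    obtain ⟨m, hm⟩ := hfin.exists_pow_eq_one
    obtain ⟨hmpos, hm⟩ := hm
    have hone : ∀ j : ℕ, ∀ z : X, t ^ (m * j) • z = z := by
      intro j z
      have h1 : ((MulAction.toPermHom G X t) ^ (m * j)) z = z := by
        rw [pow_mul, hm, one_pow]
        rfl
      rwa [toPerm_pow_apply] at h1
    refine ⟨(m * n.natAbs - n).toNat, ?_⟩
    rw [toPerm_pow_apply, ← hgx, ← zpow_natCast, ← mul_smul, ← zpow_add]
    have hnonneg : 0 ≤ (m : ℤ) * n.natAbs - n := by
      have h1 : n ≤ (n.natAbs : ℤ) := Int.le_natAbs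
      have h2 : (n.natAbs : ℤ) ≤ (m : ℤ) * n.natAbs := by
        have : (1 : ℤ) ≤ m := by exact_mod_cast hmpos
        nlinarith [Int.natCast_nonneg n.natAbs]
      linarith
    rw [Int.toNat_of_nonneg hnonneg]
    have h3 : (m : ℤ) * n.natAbs - n + n = ((m * n.natAbs : ℕ) : ℤ) := by push_cast; ring
    rw [h3, zpow_natCast]
    exact hone _ _
  · rintro ⟨k, hk⟩
    rw [toPerm_pow_apply] at hk
    refine ⟨⟨t ^ (-(k : ℤ)), Subgroup.zpow_mem_zpowers t _⟩, ?_⟩
    change t ^ (-(k : ℤ)) • y = x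
    rw [← hk, ← zpow_natCast, ← mul_smul, ← zpow_add, neg_add_cancel, zpow_zero, one_smul]

/-- transitivity passes to the permutations attached to generators -/
theorem exists_mem_closure_toPerm [MulAction.IsPretransitive G X] (s u : G)
    (hgen : Subgroup.closure ({s, u} : Set G) = ⊤) (x y : X) :
    ∃ g ∈ Subgroup.closure ({MulAction.toPermHom G X s, MulAction.toPermHom G X u} :
      Set (Equiv.Perm X)), g x = y := by
  obtain ⟨g, rfl⟩ := MulAction.exists_smul_eq G x y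
  refine ⟨MulAction.toPermHom G X g, ?_, rfl⟩
  have hg : g ∈ Subgroup.closure ({s, u} : Set G) := by rw [hgen]; trivial
  have himg : (Subgroup.closure ({s, u} : Set G)).map (MulAction.toPermHom G X) =
      Subgroup.closure ({MulAction.toPermHom G X s, MulAction.toPermHom G X u} :
        Set (Equiv.Perm X)) := by
    rw [MonoidHom.map_closure, Set.image_pair]
  rw [← himg]
  exact Subgroup.mem_map_of_mem _ hg

end Action

end CohGlue

open CohGlue

/-- (F1) both forms of the abstract cohomological dimension bound at once -/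
theorem coh_abstract_both {G : Type*} [Group G] (Γ : Subgroup G) [Finite (G ⧸ Γ)] (s u : G)
    (hgen : Subgroup.closure ({s, u} : Set G) = ⊤) (hs4 : s ^ 4 = 1) (hs2 : s ^ 2 ∈ Γ)
    (hc : ∀ g : G, s ^ 2 * g = g * s ^ 2) (hsu : s ^ 2 = u ^ 3) :
    Module.Finite ℂ (cuspKillingHoms Γ (s⁻¹ * u)) ∧
    (6 * Module.finrank ℂ (cuspKillingHoms Γ (s⁻¹ * u))
      + 3 * Nat.card (MulAction.fixedBy (G ⧸ Γ) s)
      + 4 * Nat.card (MulAction.fixedBy (G ⧸ Γ) u)
      + 6 * Nat.card (MulAction.orbitRel.Quotient (Subgroup.zpowers (s⁻¹ * u)) (G ⧸ Γ))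
      ≤ Nat.card (G ⧸ Γ) + 12) ∧
    (Module.finrank ℂ (cuspKillingHoms Γ (s⁻¹ * u))
      + Nat.card (Quotient (Equiv.Perm.SameCycle.setoid (MulAction.toPerm s : Equiv.Perm (G ⧸ Γ))))
      + Nat.card (Quotient (Equiv.Perm.SameCycle.setoid (MulAction.toPerm u : Equiv.Perm (G ⧸ Γ))))
      + Nat.card (Quotient (Equiv.Perm.SameCycle.setoid
          (MulAction.toPerm (s⁻¹ * u) : Equiv.Perm (G ⧸ Γ))))
      ≤ Nat.card (G ⧸ Γ) + 2) := by
  classical
  set s' : Equiv.Perm (G ⧸ Γ) := MulAction.toPermHom G (G ⧸ Γ) s with hs'def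
  set u' : Equiv.Perm (G ⧸ Γ) := MulAction.toPermHom G (G ⧸ Γ) u with hu'def
  have hs'app : ∀ x, s' x = s • x := fun x => rfl
  have hu'app : ∀ x, u' x = u • x := fun x => rfl
  have ht' : s'⁻¹ * u' = MulAction.toPermHom G (G ⧸ Γ) (s⁻¹ * u) := by
    rw [map_mul, map_inv]
  have hs' : s' * s' = 1 := by
    ext x
    change s • s • x = x
    rw [← mul_smul, ← pow_two]
    exact sq_smul_eq hs2 hc x
  have hu' : u' * u' * u' = 1 := by
    ext x
    change u • u • u • x = x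
    rw [← mul_smul, ← mul_smul, ← pow_two, ← pow_succ, ← hsu]
    exact sq_smul_eq hs2 hc x
  have htrans : ∀ x y : G ⧸ Γ, ∃ g ∈ Subgroup.closure ({s', u'} : Set (Equiv.Perm (G ⧸ Γ))),
      g x = y := exists_mem_closure_toPerm s u hgen
  -- the linear map `φ ↦ (z φ s, z φ u)` and its range
  let L : cuspKillingHoms Γ (s⁻¹ * u) →ₗ[ℂ] ((G ⧸ Γ → ℂ) × (G ⧸ Γ → ℂ)) :=
    (shapiroPair Γ s u).comp (Submodule.subtype _)
  have hL1 : ∀ φ x, (L φ).1 x = shapiro Γ φ.1 s x := fun φ x => rfl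
  have hL2 : ∀ φ x, (L φ).2 x = shapiro Γ φ.1 u x := fun φ x => rfl
  have hcob : ∀ (φ : cuspKillingHoms Γ (s⁻¹ * u)) (v : G ⧸ Γ → ℂ),
      L φ = ((fun x => v (s' x) - v x, fun x => v (u' x) - v x) : (G ⧸ Γ → ℂ) × (G ⧸ Γ → ℂ)) →
      φ = 0 := by
    intro φ v h
    apply Subtype.ext
    refine eq_zero_of_shapiro_eq_coboundary hgen φ.1 v (fun x => ?_) (fun x => ?_)
    · rw [← hL1, h]
      rfl
    · rw [← hL2, h]
      rfl
  have hinj : Function.Injective L := by
    rw [injective_iff_map_eq_zero]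
    intro φ hφ
    refine hcob φ 0 ?_
    rw [hφ]
    ext x <;> simp
  have hfin : Module.Finite ℂ (cuspKillingHoms Γ (s⁻¹ * u)) := Module.Finite.of_injective L hinj
  have hrank : Module.finrank ℂ (LinearMap.range L) =
      Module.finrank ℂ (cuspKillingHoms Γ (s⁻¹ * u)) := LinearMap.finrank_range_of_inj hinj
  have hP1 : ∀ p ∈ LinearMap.range L, ∀ x, p.1 (s' x) = - p.1 x := by
    rintro _ ⟨φ, rfl⟩ x
    rw [hL1, hL1, hs'app]
    exact shapiro_s_smul hs4 hs2 hc φ.1 x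
  have hP2 : ∀ p ∈ LinearMap.range L, ∀ x, p.2 x + p.2 (u' x) + p.2 (u' (u' x)) = 0 := by
    rintro _ ⟨φ, rfl⟩ x
    rw [hL2, hL2, hL2, hu'app, hu'app]
    exact shapiro_u_sum hsu hs4 hs2 hc φ.1 x
  have hP3 : ∀ p ∈ LinearMap.range L, ∀ x, ∑ k ∈ Finset.range (orderOf (s'⁻¹ * u')),
      (p.2 (((s'⁻¹ * u') ^ k) x) - p.1 ((s'⁻¹ * u') (((s'⁻¹ * u') ^ k) x))) = 0 := by
    rintro _ ⟨φ, rfl⟩ x
    have hm : (s⁻¹ * u) ^ orderOf (s'⁻¹ * u') • x = x := by
      have h1 : ((s'⁻¹ * u') ^ orderOf (s'⁻¹ * u')) x = x := by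
        rw [pow_orderOf_eq_one]; rfl
      rw [← toPerm_pow_apply, ← ht']
      exact h1
    have h2 := sum_shapiro_t_eq_zero φ.2 hm
    rw [← h2]
    refine Finset.sum_congr rfl fun k _ => ?_
    rw [hL1, hL2, ht', toPerm_pow_apply]
    rfl
  have hP4 : ∀ v : G ⧸ Γ → ℂ,
      ((fun x => v (s' x) - v x, fun x => v (u' x) - v x) : (G ⧸ Γ → ℂ) × (G ⧸ Γ → ℂ)) ∈
        LinearMap.range L →
      ((fun x => v (s' x) - v x, fun x => v (u' x) - v x) : (G ⧸ Γ → ℂ) × (G ⧸ Γ → ℂ)) = 0 := by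
    rintro v ⟨φ, hφ⟩
    have h0 := hcob φ v hφ
    rw [← hφ, h0, map_zero]
  refine ⟨hfin, ?_, ?_⟩
  · have key := coh_linalg_bound s' u' hs' hu' htrans
      (Q := MulAction.orbitRel.Quotient (Subgroup.zpowers (s⁻¹ * u)) (G ⧸ Γ))
      (fun x => Quotient.mk'' x) Quotient.mk''_surjective
      (fun x y => by rw [ht']; exact orbitRel_zpowers_iff (s⁻¹ * u) x y)
      (LinearMap.range L) hP1 hP2 hP3 hP4
    rw [hrank] at key
    exact key
  · have key := coh_linalg_bound_orbit s' u' hs' hu' htrans (LinearMap.range L) hP1 hP2 hP3 hP4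
    rw [hrank, ht'] at key
    exact key

/-- (F1) the abstract cohomological dimension bound, fixed point form -/
theorem coh_abstract {G : Type*} [Group G] (Γ : Subgroup G) [Finite (G ⧸ Γ)] (s u : G)
    (hgen : Subgroup.closure ({s, u} : Set G) = ⊤) (hs4 : s ^ 4 = 1) (hs2 : s ^ 2 ∈ Γ)
    (hc : ∀ g : G, s ^ 2 * g = g * s ^ 2) (hsu : s ^ 2 = u ^ 3) :
    Module.Finite ℂ (cuspKillingHoms Γ (s⁻¹ * u)) ∧
    6 * Module.finrank ℂ (cuspKillingHoms Γ (s⁻¹ * u))
      + 3 * Nat.card (MulAction.fixedBy (G ⧸ Γ) s)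
      + 4 * Nat.card (MulAction.fixedBy (G ⧸ Γ) u)
      + 6 * Nat.card (MulAction.orbitRel.Quotient (Subgroup.zpowers (s⁻¹ * u)) (G ⧸ Γ))
      ≤ Nat.card (G ⧸ Γ) + 12 :=
  ⟨(coh_abstract_both Γ s u hgen hs4 hs2 hc hsu).1, (coh_abstract_both Γ s u hgen hs4 hs2 hc hsu).2.1⟩

/-- (F1) the abstract cohomological dimension bound, orbit count form -/
theorem coh_abstract_orbit {G : Type*} [Group G] (Γ : Subgroup G) [Finite (G ⧸ Γ)] (s u : G)
    (hgen : Subgroup.closure ({s, u} : Set G) = ⊤) (hs4 : s ^ 4 = 1) (hs2 : s ^ 2 ∈ Γ)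
    (hc : ∀ g : G, s ^ 2 * g = g * s ^ 2) (hsu : s ^ 2 = u ^ 3) :
    Module.Finite ℂ (cuspKillingHoms Γ (s⁻¹ * u)) ∧
    Module.finrank ℂ (cuspKillingHoms Γ (s⁻¹ * u))
      + Nat.card (Quotient (Equiv.Perm.SameCycle.setoid (MulAction.toPerm s : Equiv.Perm (G ⧸ Γ))))
      + Nat.card (Quotient (Equiv.Perm.SameCycle.setoid (MulAction.toPerm u : Equiv.Perm (G ⧸ Γ))))
      + Nat.card (Quotient (Equiv.Perm.SameCycle.setoid
          (MulAction.toPerm (s⁻¹ * u) : Equiv.Perm (G ⧸ Γ))))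
      ≤ Nat.card (G ⧸ Γ) + 2 :=
  ⟨(coh_abstract_both Γ s u hgen hs4 hs2 hc hsu).1, (coh_abstract_both Γ s u hgen hs4 hs2 hc hsu).2.2⟩

end Fermat.Agent.S21
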