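import Fermat.Agent.S21.Injective
import Fermat.Agent.S21.Primitive
import Fermat.Agent.S21.Linear
import Fermat.Agent.S21.Parabolic

/-!
Wrap-up of the Eichler–Shimura analytic input: the period pairing is injective, its range
consists of parabolic homomorphisms, and the resulting dimension statements.
-/

set_option autoImplicit false

namespace Fermat.Agent.S21

open UpperHalfPlane CongruenceSubgroup Filter Topology ModularCurve ModularCurve.Period
open scoped MatrixGroups

/-- The period map is linear. -/
theorem existsPeriodMapLinear' (N : ℕ) [NeZero N] : ExistsPeriodMapLinear N :=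
  existsPeriodMapLinear_of_exists N (exists_hasEquivariantPrimitive N)

/-- The period pairing is injective. -/
theorem periodHomPair_injective' (N : ℕ) [NeZero N] :
    Function.Injective (periodHomPair N) :=
  periodHomPair_injective N (exists_hasEquivariantPrimitive N) (existsPeriodMapLinear' N)

/-- The period pairing takes values in the parabolic homomorphisms. -/
theorem range_periodHomPair_le (N : ℕ) [NeZero N] :
    LinearMap.range (periodHomPair N) ≤ parabolicHoms ℂ (Gamma0 N) ℂ := by
  obtain ⟨pml, hpml, hdef⟩ := periodHomPair_def N (existsPeriodMapLinear' N)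
  rw [hdef]
  rintro _ ⟨⟨f, g⟩, rfl⟩
  have hf : pml f ∈ parabolicHoms ℂ (Gamma0 N) ℂ := by
    rw [hpml]; exact periodMap_mem_parabolicHoms N f
  have hg : pml g ∈ parabolicHoms ℂ (Gamma0 N) ℂ := by
    rw [hpml]; exact periodMap_mem_parabolicHoms N g
  have hcf := charInvolution_mem_parabolicHoms N ℂ ℂ hf
  have hcg := charInvolution_mem_parabolicHoms N ℂ ℂ hg
  simp only [LinearMap.coprod_apply, LinearMap.comp_apply, LinearMap.add_apply,
    LinearMap.sub_apply, LinearMap.id_apply]
  exact Submodule.add_mem _ (Submodule.add_mem _ hf hcf) (Submodule.sub_mem _ hg hcg)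

/-- The period pairing, corestricted to the parabolic homomorphisms. -/
noncomputable def periodHomPairPar (N : ℕ) [NeZero N] :
    (CuspForm (Gamma0 N) 2 × CuspForm (Gamma0 N) 2) →ₗ[ℂ]
      ↥(parabolicHoms ℂ (Gamma0 N) ℂ) :=
  (periodHomPair N).codRestrict (parabolicHoms ℂ (Gamma0 N) ℂ)
    (fun x => range_periodHomPair_le N (LinearMap.mem_range_self _ x))

theorem periodHomPairPar_injective (N : ℕ) [NeZero N] :
    Function.Injective (periodHomPairPar N) := by
  intro x y hxy
  apply periodHomPair_injective' N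
  exact congrArg Subtype.val hxy

/-- If the parabolic homomorphisms are finite dimensional, so are the cusp forms, and
`2 · dim S₂(Γ₀(N)) ≤ dim (parabolic homomorphisms)`. -/
theorem two_mul_finrank_le (N : ℕ) [NeZero N]
    [Module.Finite ℂ ↥(parabolicHoms ℂ (Gamma0 N) ℂ)] :
    Module.Finite ℂ (CuspForm (Gamma0 N) 2) ∧
      2 * Module.finrank ℂ (CuspForm (Gamma0 N) 2)
        ≤ Module.finrank ℂ ↥(parabolicHoms ℂ (Gamma0 N) ℂ) := by
  have hfin2 : Module.Finite ℂ (CuspForm (Gamma0 N) 2 × CuspForm (Gamma0 N) 2) :=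
    Module.Finite.of_injective (periodHomPairPar N) (periodHomPairPar_injective N)
  have hfin : Module.Finite ℂ (CuspForm (Gamma0 N) 2) :=
    Module.Finite.of_surjective
      (LinearMap.fst ℂ (CuspForm (Gamma0 N) 2) (CuspForm (Gamma0 N) 2)) LinearMap.fst_surjective
  refine ⟨hfin, ?_⟩
  have h := LinearMap.finrank_le_finrank_of_injective (periodHomPairPar_injective N)
  rw [Module.finrank_prod] at h
  omega

/-- **Eichler–Shimura**, assuming the upper bound for the dimension of the parabolic
homomorphisms. -/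
theorem eichlerShimura_of_finrank_le (N : ℕ) [NeZero N]
    [Module.Finite ℂ ↥(parabolicHoms ℂ (Gamma0 N) ℂ)]
    (h : Module.finrank ℂ ↥(parabolicHoms ℂ (Gamma0 N) ℂ)
      ≤ 2 * Module.finrank ℂ (CuspForm (Gamma0 N) 2)) :
    Function.Injective (periodHomPair N) ∧
      LinearMap.range (periodHomPair N) = parabolicHoms ℂ (Gamma0 N) ℂ := by
  refine ⟨periodHomPair_injective' N, ?_⟩
  have hfin := (two_mul_finrank_le N).1
  apply Submodule.eq_of_le_of_finrank_le (range_periodHomPair_le N)
  rw [LinearMap.finrank_range_of_inj (periodHomPair_injective' N), Module.finrank_prod]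
  omega

/-- Upper bound for the dimension of the weight two cusp forms from an upper bound for the
dimension of the parabolic homomorphisms. -/
theorem finrank_cuspForm_le_of_parabolic_le (N : ℕ) [NeZero N]
    [Module.Finite ℂ ↥(parabolicHoms ℂ (Gamma0 N) ℂ)] (g : ℚ)
    (h : (Module.finrank ℂ ↥(parabolicHoms ℂ (Gamma0 N) ℂ) : ℚ) ≤ 2 * g) :
    (Module.finrank ℂ (CuspForm (Gamma0 N) 2) : ℚ) ≤ g := by
  have h2 := (two_mul_finrank_le N).2
  have h3 : ((2 * Module.finrank ℂ (CuspForm (Gamma0 N) 2) : ℕ) : ℚ)
      ≤ (Module.finrank ℂ ↥(parabolicHoms ℂ (Gamma0 N) ℂ) : ℚ) := by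
    exact_mod_cast h2
  push_cast at h3
  linarith

/-- **Eichler–Shimura**, in the form used by the final assembly: rational bounds through a
common value `g` (the genus). -/
theorem eichlerShimura_of_rat_bounds (N : ℕ) [NeZero N]
    [Module.Finite ℂ ↥(parabolicHoms ℂ (Gamma0 N) ℂ)] (g : ℚ)
    (h1 : (Module.finrank ℂ ↥(parabolicHoms ℂ (Gamma0 N) ℂ) : ℚ) ≤ 2 * g)
    (h2 : g ≤ (Module.finrank ℂ (CuspForm (Gamma0 N) 2) : ℚ)) :
    Function.Injective (periodHomPair N) ∧
      LinearMap.range (periodHomPair N) = parabolicHoms ℂ (Gamma0 N) ℂ := by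
  apply eichlerShimura_of_finrank_le N
  have h3 : (Module.finrank ℂ ↥(parabolicHoms ℂ (Gamma0 N) ℂ) : ℚ)
      ≤ ((2 * Module.finrank ℂ (CuspForm (Gamma0 N) 2) : ℕ) : ℚ) := by
    push_cast
    linarith
  exact_mod_cast h3

end Fermat.Agent.S21
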