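import Fermat.Agent.S21.MaxPrinciple
import Fermat.Prelude.Def_ModularCurve_PeriodHomPair

/-!
Injectivity of the period pairing `ModularCurve.periodHomPair N`, assuming that every cusp form
has an equivariant primitive (and hence that the period map is linear).
-/

set_option autoImplicit false

namespace Fermat.Agent.S21

open UpperHalfPlane CongruenceSubgroup Filter Topology Complex ModularCurve ModularCurve.Period
open scoped MatrixGroups Manifold ModularForm ComplexConjugate

namespace Injective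

/-- `J γ = (j γ j) J` in `GL(2, ℝ)`. -/
theorem J_mul (γ : SL(2, ℤ)) :
    J * ((γ : SL(2, ℤ)) : GL (Fin 2) ℝ) = ((jConjSL γ : SL(2, ℤ)) : GL (Fin 2) ℝ) * J := by
  ext i j
  fin_cases i <;> fin_cases j <;>
    simp [Matrix.mul_apply, Fin.sum_univ_two, jConjMat]

theorem J_smul_smul (γ : SL(2, ℤ)) (z : ℍ) : J • (γ • z) = (jConjSL γ) • (J • z) := by
  rw [ModularGroup.sl_moeb, ModularGroup.sl_moeb, ← mul_smul, ← mul_smul, J_mul]

theorem im_J_smul (w : ℍ) : (J • w).im = w.im := by
  have h := congrArg Complex.im (coe_J_smul w)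
  simpa using h

theorem tendsto_J_smul : Tendsto (fun w : ℍ => J • w) atImInfty atImInfty := by
  rw [atImInfty, tendsto_comap_iff]
  have : (UpperHalfPlane.im ∘ fun w : ℍ => J • w) = UpperHalfPlane.im := by
    funext w
    exact im_J_smul w
  rw [this]
  exact tendsto_comap

/-- The conjugate primitive `τ ↦ conj (F (-conj τ))`. -/
noncomputable def conjPrim (F : ℍ → ℂ) : ℍ → ℂ := fun τ => conj (F (J • τ))

theorem conjPrim_eq_slash (F : ℍ → ℂ) : conjPrim F = F ∣[(0 : ℤ)] J := by
  funext τ
  have hσ : σ J = Complex.conjCAE := by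
    simp [σ]
  simp [conjPrim, ModularForm.slash_apply, hσ]

theorem mdiff_conjPrim {F : ℍ → ℂ} (hF : MDiff F) : MDiff (conjPrim F) := by
  rw [conjPrim_eq_slash]
  exact hF.slash 0 J

variable {N : ℕ} {f : CuspForm (Gamma0 N) 2} {F : ℍ → ℂ}

theorem mdiff_of_prim (hF : HasEquivariantPrimitive N f F) : MDiff F := by
  rw [mdifferentiable_iff]
  intro z hz
  exact (hF.1 ⟨z, hz⟩).differentiableAt.differentiableWithinAt

theorem prim_smul (hF : HasEquivariantPrimitive N f F) (γ : Gamma0 N) (z : ℍ) :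
    F ((γ : SL(2, ℤ)) • z) = F z + hF.2.2.1.period γ := by
  have h := hF.2.2.1.sub_eq_period γ z
  rw [← h]
  ring

theorem conjPrim_smul (hF : HasEquivariantPrimitive N f F) (γ : Gamma0 N) (z : ℍ) :
    conjPrim F ((γ : SL(2, ℤ)) • z) =
      conjPrim F z + conj (hF.2.2.1.period (jConjGamma0 N γ)) := by
  simp only [conjPrim]
  rw [J_smul_smul]
  have h := prim_smul hF (jConjGamma0 N γ) (J • z)
  rw [jConjGamma0_coe] at h
  rw [h, map_add]

theorem conjPrim_tendsto (hF : HasEquivariantPrimitive N f F) (δ : SL(2, ℤ)) :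
    ∃ L : ℂ, Tendsto (fun w : ℍ => conjPrim F (δ • w)) atImInfty (𝓝 L) := by
  obtain ⟨L, hL⟩ := hF.2.2.2 (jConjSL δ)
  refine ⟨conj L, ?_⟩
  have h1 : Tendsto (fun w : ℍ => F ((jConjSL δ) • (J • w))) atImInfty (𝓝 L) :=
    hL.comp tendsto_J_smul
  have h2 : Tendsto (fun w : ℍ => conj (F ((jConjSL δ) • (J • w)))) atImInfty (𝓝 (conj L)) :=
    (Complex.continuous_conj.tendsto L).comp h1
  refine h2.congr fun w => ?_
  simp only [conjPrim]
  rw [J_smul_smul]

/-- If the periods of `f` satisfy `P γ + s • P (j γ j) = 0` for a real number `s`, then `f = 0`. -/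
theorem eq_zero_of_period_relation [NeZero N] (hF : HasEquivariantPrimitive N f F) (s : ℝ)
    (hrel : ∀ γ : Gamma0 N,
      hF.2.2.1.period γ + (s : ℂ) * hF.2.2.1.period (jConjGamma0 N γ) = 0) : f = 0 := by
  have hFd : MDiff F := mdiff_of_prim hF
  have hBd : MDiff (conjPrim F) := mdiff_conjPrim hFd
  -- first function: `A + s B`
  obtain ⟨c₁, hc₁⟩ := eq_const_of_re_invariant N (fun z => F z + (s : ℂ) * conjPrim F z)
    (hFd.add (mdifferentiable_const.mul hBd))
    (by
      intro γ hγ
      refine ⟨hF.2.2.1.period ⟨γ, hγ⟩ + (s : ℂ) * conj (hF.2.2.1.period (jConjGamma0 N ⟨γ, hγ⟩)),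
        ?_, fun z => ?_⟩
      · have h := congrArg Complex.re (hrel ⟨γ, hγ⟩)
        simpa using h
      · have h1 := prim_smul hF ⟨γ, hγ⟩ z
        have h2 := conjPrim_smul hF ⟨γ, hγ⟩ z
        rw [h1, h2]
        ring)
    (by
      intro δ
      obtain ⟨L₁, hL₁⟩ := hF.2.2.2 δ
      obtain ⟨L₂, hL₂⟩ := conjPrim_tendsto hF δ
      exact ⟨L₁ + (s : ℂ) * L₂, hL₁.add (hL₂.const_mul _)⟩)
  -- second function: `-I (A - s B)`
  obtain ⟨c₂, hc₂⟩ := eq_const_of_re_invariant N
    (fun z => -Complex.I * (F z - (s : ℂ) * conjPrim F z))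
    (mdifferentiable_const.mul (hFd.sub (mdifferentiable_const.mul hBd)))
    (by
      intro γ hγ
      refine ⟨-Complex.I * (hF.2.2.1.period ⟨γ, hγ⟩ -
        (s : ℂ) * conj (hF.2.2.1.period (jConjGamma0 N ⟨γ, hγ⟩))), ?_, fun z => ?_⟩
      · have h := congrArg Complex.im (hrel ⟨γ, hγ⟩)
        simpa using h
      · have h1 := prim_smul hF ⟨γ, hγ⟩ z
        have h2 := conjPrim_smul hF ⟨γ, hγ⟩ z
        rw [h1, h2]
        ring)
    (by
      intro δ
      obtain ⟨L₁, hL₁⟩ := hF.2.2.2 δ
      obtain ⟨L₂, hL₂⟩ := conjPrim_tendsto hF δ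
      exact ⟨-Complex.I * (L₁ - (s : ℂ) * L₂), (hL₁.sub (hL₂.const_mul _)).const_mul _⟩)
  -- hence `F` is constant
  have hconst : ∀ z : ℍ, F z = (c₁ + Complex.I * c₂) / 2 := by
    intro z
    have h1 := hc₁ z
    have h2 := hc₂ z
    have hI : Complex.I * Complex.I = -1 := Complex.I_mul_I
    rw [← h1, ← h2]
    linear_combination ((1 : ℂ) / 2 * (F z - (s : ℂ) * conjPrim F z)) * hI
  -- so its derivative `f` vanishes
  ext τ
  have hd := hF.1 τ
  have hfun : (F ∘ ofComplex) = fun _ => (c₁ + Complex.I * c₂) / 2 := by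
    funext w
    exact hconst _
  rw [hfun] at hd
  exact hd.unique (hasDerivAt_const _ _)

end Injective

open Injective in
/-- Injectivity of the period pairing, assuming the existence of equivariant primitives. -/
theorem periodHomPair_injective (N : ℕ) [NeZero N]
    (hprim : ∀ f : CuspForm (Gamma0 N) 2, ∃ F : ℍ → ℂ, HasEquivariantPrimitive N f F)
    (hlin : ExistsPeriodMapLinear N) : Function.Injective (periodHomPair N) := by
  obtain ⟨pml, hpml, hdef⟩ := periodHomPair_def N hlin
  -- the two key vanishing statements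
  have key : ∀ (f : CuspForm (Gamma0 N) 2) (s : ℝ),
      (∀ γ : Gamma0 N, periodMap N f (Additive.ofMul γ) +
        (s : ℂ) * periodMap N f (Additive.ofMul (jConjGamma0 N γ)) = 0) → f = 0 := by
    intro f s h
    obtain ⟨F, hF⟩ := hprim f
    obtain ⟨F₀, h₀, hP⟩ := periodMap_def N f hF
    refine eq_zero_of_period_relation h₀ s fun γ => ?_
    have := h γ
    rw [hP] at this
    exact this
  refine (injective_iff_map_eq_zero _).mpr ?_
  rintro ⟨f, g⟩ hfg
  rw [hdef] at hfg
  simp only [LinearMap.coprod_apply, LinearMap.comp_apply, LinearMap.add_apply,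
    LinearMap.sub_apply, LinearMap.id_apply, hpml] at hfg
  -- hfg : P f + c (P f) + (P g - c (P g)) = 0
  have hc := congrArg (charInvolution N ℂ ℂ) hfg
  simp only [map_add, map_sub, map_zero, charInvolution_charInvolution] at hc
  have hf : periodMap N f + charInvolution N ℂ ℂ (periodMap N f) = 0 := by
    have h2 : (2 : ℂ) • (periodMap N f + charInvolution N ℂ ℂ (periodMap N f)) = 0 := by
      rw [two_smul]
      have := congrArg₂ (· + ·) hfg hc
      simp only [add_zero] at this
      rw [← this]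
      abel
    exact (smul_eq_zero.mp h2).resolve_left two_ne_zero
  have hg : periodMap N g - charInvolution N ℂ ℂ (periodMap N g) = 0 := by
    have h2 : (2 : ℂ) • (periodMap N g - charInvolution N ℂ ℂ (periodMap N g)) = 0 := by
      rw [two_smul]
      have := congrArg₂ (· - ·) hfg hc
      simp only [sub_zero] at this
      rw [← this]
      abel
    exact (smul_eq_zero.mp h2).resolve_left two_ne_zero
  have hf0 : f = 0 := by
    refine key f 1 fun γ => ?_
    have := DFunLike.congr_fun hf (Additive.ofMul γ)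
    simpa using this
  have hg0 : g = 0 := by
    refine key g (-1) fun γ => ?_
    have := DFunLike.congr_fun hg (Additive.ofMul γ)
    simpa [sub_eq_add_neg] using this
  rw [hf0, hg0]
  rfl

end Fermat.Agent.S21
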